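import Mathlib

/-!
# Row LT, tower T7, leaf T7.L2.3.5.5 `SD534.SchurSeqC` (registry 2183): the abstract core, part 1
(helper228)

OFF-MAIN.  Mathlib only.  Simultaneous Schur form of four commuting endomorphisms of a finite
dimensional complex inner product space:

* `exists_common_eigen228`: four commuting endomorphisms have a common eigenvector;
* `exists_joint_kernel228`: two commuting endomorphisms whose ranges lie in a proper subspace
  have a common kernel vector (Fitting);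
* `IsAdapted228`: `T L ⊆ L`, `T e - d e ∈ L` (the diagonal coefficient is multiplicative);
* `exists_schur228`: an orthonormal family `e` of `finrank` members, with subspaces `L i ⊥ e i`
  to which `Z, Z', U, B` are adapted, and every diagonal pair of `(Z, U)` is a joint eigenvalue.
-/

set_option autoImplicit false
set_option linter.unusedSectionVars false
set_option linter.unusedVariables false

open scoped ComplexConjugate InnerProductSpace
open Module

noncomputable section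

namespace Fermat.Agent.LT.T7.H228

/-! ## 1. Common eigenvectors -/

section Eigen

variable {E : Type} [AddCommGroup E] [Module ℂ E] [FiniteDimensional ℂ E]

/-- One step: inside a nonzero invariant subspace `P` there is a nonzero eigenspace `P'` of `f`,
invariant under everything which commutes with `f` and preserves `P`. -/
theorem eigen_step228 (f : E →ₗ[ℂ] E) (P : Submodule ℂ E) (hP : P ≠ ⊥)
    (hinv : ∀ x ∈ P, f x ∈ P) :
    ∃ (μ : ℂ) (P' : Submodule ℂ E), P' ≤ P ∧ P' ≠ ⊥ ∧ (∀ x ∈ P', f x = μ • x) ∧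
      ∀ g : E →ₗ[ℂ] E, (∀ x, f (g x) = g (f x)) → (∀ x ∈ P, g x ∈ P) → ∀ x ∈ P', g x ∈ P' := by
  have : Nontrivial P := (Submodule.nontrivial_iff_ne_bot).2 hP
  obtain ⟨μ, hμ⟩ := Module.End.exists_eigenvalue (f.restrict hinv)
  obtain ⟨v, hv⟩ := hμ.exists_hasEigenvector
  have hv1 : (f.restrict hinv) v = μ • v := hv.apply_eq_smul
  have hv0 : v ≠ 0 := hv.2
  refine ⟨μ, P ⊓ LinearMap.ker (f - μ • LinearMap.id), inf_le_left, ?_, ?_, ?_⟩
  · intro h
    have hmem : (v : E) ∈ P ⊓ LinearMap.ker (f - μ • LinearMap.id) := by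
      refine Submodule.mem_inf.2 ⟨v.2, ?_⟩
      rw [LinearMap.mem_ker, LinearMap.sub_apply, LinearMap.smul_apply, LinearMap.id_apply]
      have := congrArg Subtype.val hv1
      simp only [LinearMap.coe_restrict_apply, Submodule.coe_smul] at this
      rw [this, sub_self]
    rw [h, Submodule.mem_bot] at hmem
    exact hv0 (Subtype.ext hmem)
  · intro x hx
    have := (Submodule.mem_inf.1 hx).2
    rw [LinearMap.mem_ker, LinearMap.sub_apply, LinearMap.smul_apply, LinearMap.id_apply,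
      sub_eq_zero] at this
    exact this
  · intro g hfg hgP x hx
    refine Submodule.mem_inf.2 ⟨hgP x (Submodule.mem_inf.1 hx).1, ?_⟩
    have := (Submodule.mem_inf.1 hx).2
    rw [LinearMap.mem_ker, LinearMap.sub_apply, LinearMap.smul_apply, LinearMap.id_apply,
      sub_eq_zero] at this
    rw [LinearMap.mem_ker, LinearMap.sub_apply, LinearMap.smul_apply, LinearMap.id_apply,
      sub_eq_zero, hfg, this, map_smul]

/-- Four commuting endomorphisms of a nonzero finite dimensional complex vector space have a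
common eigenvector. -/
theorem exists_common_eigen228 [Nontrivial E] (f₁ f₂ f₃ f₄ : E →ₗ[ℂ] E)
    (h12 : ∀ x, f₁ (f₂ x) = f₂ (f₁ x)) (h13 : ∀ x, f₁ (f₃ x) = f₃ (f₁ x))
    (h14 : ∀ x, f₁ (f₄ x) = f₄ (f₁ x)) (h23 : ∀ x, f₂ (f₃ x) = f₃ (f₂ x))
    (h24 : ∀ x, f₂ (f₄ x) = f₄ (f₂ x)) (h34 : ∀ x, f₃ (f₄ x) = f₄ (f₃ x)) :
    ∃ (v : E) (μ₁ μ₂ μ₃ μ₄ : ℂ), v ≠ 0 ∧ f₁ v = μ₁ • v ∧ f₂ v = μ₂ • v ∧ f₃ v = μ₃ • v ∧
      f₄ v = μ₄ • v := by
  have htop : (⊤ : Submodule ℂ E) ≠ ⊥ := top_ne_bot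
  obtain ⟨μ₁, P₁, -, hP₁, he₁, hi₁⟩ := eigen_step228 f₁ ⊤ htop (fun x _ => Submodule.mem_top)
  have i2 := hi₁ f₂ h12 (fun x _ => Submodule.mem_top)
  have i3 := hi₁ f₃ h13 (fun x _ => Submodule.mem_top)
  have i4 := hi₁ f₄ h14 (fun x _ => Submodule.mem_top)
  obtain ⟨μ₂, P₂, hle₂, hP₂, he₂, hi₂⟩ := eigen_step228 f₂ P₁ hP₁ i2
  have j3 := hi₂ f₃ h23 i3
  have j4 := hi₂ f₄ h24 i4
  obtain ⟨μ₃, P₃, hle₃, hP₃, he₃, hi₃⟩ := eigen_step228 f₃ P₂ hP₂ j3
  have k4 := hi₃ f₄ h34 j4
  obtain ⟨μ₄, P₄, hle₄, hP₄, he₄, -⟩ := eigen_step228 f₄ P₃ hP₃ k4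
  obtain ⟨v, hv, hv0⟩ := Submodule.exists_mem_ne_zero_of_ne_bot hP₄
  exact ⟨v, μ₁, μ₂, μ₃, μ₄, hv0, he₁ v (hle₂ (hle₃ (hle₄ hv))), he₂ v (hle₃ (hle₄ hv)),
    he₃ v (hle₄ hv), he₄ v hv⟩

/-! ## 2. The joint kernel (Fitting) -/

/-- Two commuting endomorphisms whose ranges lie in a proper subspace have a common kernel
vector. -/
theorem exists_joint_kernel228 (S T : E →ₗ[ℂ] E) (hST : ∀ x, S (T x) = T (S x))
    (H : Submodule ℂ E) (hH : H ≠ ⊤) (hS : ∀ x, S x ∈ H) (hT : ∀ x, T x ∈ H) :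
    ∃ y : E, y ≠ 0 ∧ S y = 0 ∧ T y = 0 := by
  classical
  -- the generalised kernel of `S`
  set G : Submodule ℂ E := ⨆ n : ℕ, LinearMap.ker (S ^ n) with hG
  have hcompl := LinearMap.isCompl_iSup_ker_pow_iInf_range_pow S
  have hGmem : ∀ x : E, x ∈ G ↔ ∃ n : ℕ, (S ^ n) x = 0 := by
    intro x
    rw [hG, Submodule.mem_iSup_of_directed]
    · simp only [LinearMap.mem_ker]
    · intro i j
      refine ⟨max i j, ?_, ?_⟩
      · intro x hx
        rw [LinearMap.mem_ker] at hx ⊢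
        rw [show max i j = (max i j - i) + i by omega, pow_add, Module.End.mul_apply, hx, map_zero]
      · intro x hx
        rw [LinearMap.mem_ker] at hx ⊢
        rw [show max i j = (max i j - j) + j by omega, pow_add, Module.End.mul_apply, hx, map_zero]
  -- powers of `S` commute with `T`
  have hpow : ∀ (n : ℕ) (x : E), (S ^ n) (T x) = T ((S ^ n) x) := by
    intro n
    induction n with
    | zero => intro x; simp
    | succ n ih =>
      intro x
      rw [pow_succ, Module.End.mul_apply, Module.End.mul_apply, hST, ih]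
  -- `G` is not contained in `H`
  have hGH : ¬ G ≤ H := by
    intro hle
    apply hH
    rw [eq_top_iff]
    have h1 : (⨅ n : ℕ, LinearMap.range (S ^ n)) ≤ H := by
      refine le_trans (iInf_le _ 1) ?_
      rintro x ⟨y, rfl⟩
      rw [pow_one]
      exact hS y
    calc (⊤ : Submodule ℂ E) = G ⊔ ⨅ n : ℕ, LinearMap.range (S ^ n) := hcompl.sup_eq_top.symm
      _ ≤ H := sup_le hle h1
  -- `T` is not injective on `G`
  have hTG : ∀ x ∈ G, T x ∈ G := by
    intro x hx
    obtain ⟨n, hn⟩ := (hGmem x).1 hx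
    exact (hGmem _).2 ⟨n, by rw [hpow, hn, map_zero]⟩
  have hex : ∃ g ∈ G, g ≠ 0 ∧ T g = 0 := by
    by_contra hcon
    push Not at hcon
    apply hGH
    have hinj : Function.Injective (T.restrict hTG) := by
      rw [← LinearMap.ker_eq_bot, LinearMap.ker_eq_bot']
      intro x hx
      by_contra hx0
      have h1 := hcon x x.2 (fun h => hx0 (Subtype.ext h))
      apply h1
      have := congrArg Subtype.val hx
      simpa using this
    have hsurj : Function.Surjective (T.restrict hTG) :=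
      LinearMap.injective_iff_surjective.1 hinj
    intro x hx
    obtain ⟨y, hy⟩ := hsurj ⟨x, hx⟩
    have := congrArg Subtype.val hy
    simp only [LinearMap.coe_restrict_apply] at this
    rw [← this]
    exact hT _
  obtain ⟨g, hgG, hg0, hTg⟩ := hex
  obtain ⟨n, hn⟩ := (hGmem g).1 hgG
  -- the minimal exponent
  have hexn : ∃ n : ℕ, (S ^ n) g = 0 := ⟨n, hn⟩
  set m := Nat.find hexn with hm
  have hm0 : (S ^ m) g = 0 := Nat.find_spec hexn
  have hmpos : m ≠ 0 := by
    intro h0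
    rw [h0, pow_zero] at hm0
    exact hg0 hm0
  obtain ⟨k, hk⟩ : ∃ k, m = k + 1 := Nat.exists_eq_succ_of_ne_zero hmpos
  refine ⟨(S ^ k) g, ?_, ?_, ?_⟩
  · intro h
    have : m ≤ k := Nat.find_min' hexn h
    omega
  · have : S ((S ^ k) g) = (S ^ (k + 1)) g := by
      rw [pow_succ', Module.End.mul_apply]
    rw [this, ← hk]
    exact hm0
  · rw [← hpow, hTg, map_zero]

end Eigen

/-! ## 3. Adapted operators -/

section Adapted

variable {E : Type} [NormedAddCommGroup E] [InnerProductSpace ℂ E]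

/-- `T` is adapted to `(e, L)` with diagonal coefficient `d`: `T L ⊆ L` and `T e - d e ∈ L`. -/
def IsAdapted228 (e : E) (L : Submodule ℂ E) (T : E →ₗ[ℂ] E) (d : ℂ) : Prop :=
  (∀ x ∈ L, T x ∈ L) ∧ T e - d • e ∈ L

theorem IsAdapted228.comp {e : E} {L : Submodule ℂ E} {S T : E →ₗ[ℂ] E} {s t : ℂ}
    (hS : IsAdapted228 e L S s) (hT : IsAdapted228 e L T t) :
    IsAdapted228 e L (S ∘ₗ T) (s * t) := by
  refine ⟨fun x hx => hS.1 _ (hT.1 x hx), ?_⟩
  have h1 : (S ∘ₗ T) e - (s * t) • e = S (T e - t • e) + t • (S e - s • e) := by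
    rw [LinearMap.comp_apply, map_sub, map_smul, smul_sub, smul_smul, mul_comm t s]
    abel
  rw [h1]
  exact L.add_mem (hS.1 _ hT.2) (L.smul_mem _ hS.2)

theorem isAdapted_id228 (e : E) (L : Submodule ℂ E) :
    IsAdapted228 e L LinearMap.id 1 := by
  refine ⟨fun x hx => hx, ?_⟩
  rw [LinearMap.id_apply, one_smul, sub_self]
  exact L.zero_mem

theorem IsAdapted228.pow {e : E} {L : Submodule ℂ E} {T : E →ₗ[ℂ] E} {t : ℂ}
    (hT : IsAdapted228 e L T t) (m : ℕ) : IsAdapted228 e L (T ^ m) (t ^ m) := by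
  induction m with
  | zero =>
    rw [pow_zero, pow_zero]
    exact isAdapted_id228 e L
  | succ m ih =>
    rw [pow_succ, pow_succ]
    exact ih.comp hT

theorem IsAdapted228.inner_eq {e : E} {L : Submodule ℂ E} {T : E →ₗ[ℂ] E} {d : ℂ}
    (he : ⟪e, e⟫_ℂ = 1) (hL : ∀ x ∈ L, ⟪e, x⟫_ℂ = 0) (hT : IsAdapted228 e L T d) :
    ⟪e, T e⟫_ℂ = d := by
  have h1 : T e = (T e - d • e) + d • e := by abel
  rw [h1, inner_add_right, hL _ hT.2, inner_smul_right, he, mul_one, zero_add]

end Adapted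

/-! ## 4. The simultaneous Schur form -/

/-- The four operators. -/
def IsOneOf228 {E : Type} [AddCommGroup E] [Module ℂ E] (Z Z' U B T : E →ₗ[ℂ] E) : Prop :=
  T = Z ∨ T = Z' ∨ T = U ∨ T = B

/-- **Simultaneous Schur form.**  Four commuting endomorphisms of a finite dimensional complex
inner product space: there is an orthonormal family `e` with `finrank` members and subspaces
`L i ⊥ e i` such that the four operators are adapted to `(e i, L i)`, and every diagonal pair of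
`(Z, U)` is a joint eigenvalue. -/
theorem exists_schur228 : ∀ (n : ℕ) (E : Type) [NormedAddCommGroup E] [InnerProductSpace ℂ E]
    [FiniteDimensional ℂ E] (Z Z' U B : E →ₗ[ℂ] E), finrank ℂ E = n →
    (∀ x, Z (Z' x) = Z' (Z x)) → (∀ x, Z (U x) = U (Z x)) → (∀ x, Z (B x) = B (Z x)) →
    (∀ x, Z' (U x) = U (Z' x)) → (∀ x, Z' (B x) = B (Z' x)) → (∀ x, U (B x) = B (U x)) →
    ∃ (ι : Type) (_ : Fintype ι) (e : ι → E) (L : ι → Submodule ℂ E),
      Fintype.card ι = n ∧ Orthonormal ℂ e ∧ (∀ i, ∀ x ∈ L i, ⟪e i, x⟫_ℂ = 0) ∧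
      (∀ i, ∀ T : E →ₗ[ℂ] E, IsOneOf228 Z Z' U B T →
        IsAdapted228 (e i) (L i) T ⟪e i, T (e i)⟫_ℂ) ∧
      ∀ i, ∃ y : E, y ≠ 0 ∧ Z y = ⟪e i, Z (e i)⟫_ℂ • y ∧ U y = ⟪e i, U (e i)⟫_ℂ • y := by
  intro n
  induction n with
  | zero =>
    intro E _ _ _ Z Z' U B hn _ _ _ _ _ _
    refine ⟨Empty, inferInstance, fun i => i.elim, fun i => i.elim, ?_, ?_, ?_, ?_, ?_⟩
    · simp
    · exact ⟨fun i => i.elim, fun i => i.elim⟩
    · exact fun i => i.elim
    · exact fun i => i.elim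
    · exact fun i => i.elim
  | succ n ih =>
    intro E _ _ _ Z Z' U B hn hZZ' hZU hZB hZ'U hZ'B hUB
    classical
    have hnt : Nontrivial E := Module.nontrivial_of_finrank_pos (R := ℂ) (by omega)
    -- the adjoints commute
    have hadj : ∀ (S T : E →ₗ[ℂ] E), (∀ x, S (T x) = T (S x)) →
        ∀ x, LinearMap.adjoint S (LinearMap.adjoint T x)
          = LinearMap.adjoint T (LinearMap.adjoint S x) := by
      intro S T h x
      have h1 : S ∘ₗ T = T ∘ₗ S := LinearMap.ext h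
      have h2 := congrArg LinearMap.adjoint h1
      rw [LinearMap.adjoint_comp, LinearMap.adjoint_comp] at h2
      exact (LinearMap.congr_fun h2 x).symm
    obtain ⟨v, μ₁, μ₂, μ₃, μ₄, hv0, h1, h2, h3, h4⟩ :=
      exists_common_eigen228 (LinearMap.adjoint Z) (LinearMap.adjoint Z') (LinearMap.adjoint U)
        (LinearMap.adjoint B) (hadj Z Z' hZZ') (hadj Z U hZU) (hadj Z B hZB) (hadj Z' U hZ'U)
        (hadj Z' B hZ'B) (hadj U B hUB)
    -- the unit vector
    have hnv : (‖v‖ : ℂ) ≠ 0 := by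
      rw [Ne, Complex.ofReal_eq_zero, norm_eq_zero]
      exact hv0
    set c : ℂ := (‖v‖ : ℂ)⁻¹ with hc
    have hc0 : c ≠ 0 := inv_ne_zero hnv
    set vh : E := c • v with hvh
    have hvh1 : ⟪vh, vh⟫_ℂ = 1 := by
      rw [hvh, inner_smul_left, inner_smul_right, inner_self_eq_norm_sq_to_K, hc]
      simp only [map_inv₀, Complex.conj_ofReal]
      have : ((‖v‖ : ℝ) : ℂ) ≠ 0 := hnv
      field_simp
      norm_cast
    have hvh0 : vh ≠ 0 := by
      intro h
      rw [h, inner_zero_left] at hvh1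
      exact zero_ne_one hvh1
    have hadjvh : ∀ (T : E →ₗ[ℂ] E) (μ : ℂ), LinearMap.adjoint T v = μ • v →
        LinearMap.adjoint T vh = μ • vh := by
      intro T μ hT
      rw [hvh, map_smul, hT, smul_comm]
    -- the invariant hyperplane
    set H : Submodule ℂ E := (ℂ ∙ v)ᗮ with hH
    have hHmem : ∀ x, x ∈ H ↔ ⟪vh, x⟫_ℂ = 0 := by
      intro x
      rw [hH, Submodule.mem_orthogonal_singleton_iff_inner_right, hvh, inner_smul_left]
      constructor
      · intro h
        rw [h, mul_zero]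
      · intro h
        rcases mul_eq_zero.1 h with h' | h'
        · exact absurd ((map_eq_zero (starRingEnd ℂ)).1 h') hc0
        · exact h'
    have hinner : ∀ (T : E →ₗ[ℂ] E) (μ : ℂ), LinearMap.adjoint T v = μ • v →
        ∀ x, ⟪vh, T x⟫_ℂ = conj μ * ⟪vh, x⟫_ℂ := by
      intro T μ hT x
      rw [← LinearMap.adjoint_inner_left, hadjvh T μ hT, inner_smul_left]
    have hinv : ∀ (T : E →ₗ[ℂ] E) (μ : ℂ), LinearMap.adjoint T v = μ • v →
        ∀ x ∈ H, T x ∈ H := by
      intro T μ hT x hx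
      rw [hHmem] at hx ⊢
      rw [hinner T μ hT, hx, mul_zero]
    have hfr : finrank ℂ H = n := by
      have : Fact (finrank ℂ E = n + 1) := ⟨hn⟩
      exact Submodule.finrank_orthogonal_span_singleton hv0
    have hcomm : ∀ (S T : E →ₗ[ℂ] E) (hS : ∀ x ∈ H, S x ∈ H) (hT : ∀ x ∈ H, T x ∈ H),
        (∀ x, S (T x) = T (S x)) → ∀ x, (S.restrict hS) ((T.restrict hT) x)
          = (T.restrict hT) ((S.restrict hS) x) := by
      intro S T hS hT h x
      apply Subtype.ext
      simp only [LinearMap.coe_restrict_apply]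
      exact h _
    obtain ⟨ι, hι, e', L', hcard, horth, hperp, hadp, heig⟩ :=
      ih H (Z.restrict (hinv Z μ₁ h1)) (Z'.restrict (hinv Z' μ₂ h2))
        (U.restrict (hinv U μ₃ h3)) (B.restrict (hinv B μ₄ h4)) hfr
        (hcomm Z Z' _ _ hZZ') (hcomm Z U _ _ hZU) (hcomm Z B _ _ hZB) (hcomm Z' U _ _ hZ'U)
        (hcomm Z' B _ _ hZ'B) (hcomm U B _ _ hUB)
    -- transfer of one adapted operator
    have htrans : ∀ (i : ι) (T : E →ₗ[ℂ] E) (hT : ∀ x ∈ H, T x ∈ H),
        IsAdapted228 (e' i) (L' i) (T.restrict hT) ⟪e' i, (T.restrict hT) (e' i)⟫_ℂ →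
        IsAdapted228 (e' i : E) ((L' i).map H.subtype) T ⟪(e' i : E), T (e' i : E)⟫_ℂ := by
      intro i T hT hA
      have hd : ⟪e' i, (T.restrict hT) (e' i)⟫_ℂ = ⟪(e' i : E), T (e' i : E)⟫_ℂ := by
        rw [Submodule.coe_inner, LinearMap.coe_restrict_apply]
      rw [hd] at hA
      constructor
      · rintro x ⟨x', hx', rfl⟩
        exact ⟨(T.restrict hT) x', hA.1 x' hx', by simp⟩
      · refine ⟨(T.restrict hT) (e' i) - ⟪(e' i : E), T (e' i : E)⟫_ℂ • e' i, hA.2, ?_⟩
        simp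
    have hdiag : ∀ (T : E →ₗ[ℂ] E) (μ : ℂ), LinearMap.adjoint T v = μ • v →
        ⟪vh, T vh⟫_ℂ = conj μ := by
      intro T μ hT
      rw [hinner T μ hT, hvh1, mul_one]
    have hlast : ∀ (T : E →ₗ[ℂ] E) (μ : ℂ), LinearMap.adjoint T v = μ • v →
        IsAdapted228 vh H T ⟪vh, T vh⟫_ℂ := by
      intro T μ hT
      refine ⟨hinv T μ hT, ?_⟩
      rw [hHmem, inner_sub_right, inner_smul_right, hvh1, mul_one, sub_self]
    refine ⟨Option ι, inferInstance, fun o => o.elim vh (fun i => (e' i : E)),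
      fun o => o.elim H (fun i => (L' i).map H.subtype), ?_, ?_, ?_, ?_, ?_⟩
    · rw [Fintype.card_option, hcard]
    · rw [orthonormal_iff_ite]
      have horth' := orthonormal_iff_ite.1 horth
      rintro (_ | i) (_ | j)
      · simpa using hvh1
      · have : ⟪vh, (e' j : E)⟫_ℂ = 0 := (hHmem _).1 (e' j).2
        simpa using this
      · have : ⟪vh, (e' i : E)⟫_ℂ = 0 := (hHmem _).1 (e' i).2
        have h' : ⟪(e' i : E), vh⟫_ℂ = 0 := by
          rw [← inner_conj_symm, this, map_zero]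
        simpa using h'
      · have := horth' i j
        rw [Submodule.coe_inner] at this
        simpa using this
    · rintro (_ | i) x hx
      · exact (hHmem x).1 hx
      · obtain ⟨x', hx', rfl⟩ := hx
        have := hperp i x' hx'
        rw [Submodule.coe_inner] at this
        exact this
    · rintro (_ | i) T hT
      · rcases hT with rfl | rfl | rfl | rfl
        · exact hlast _ μ₁ h1
        · exact hlast _ μ₂ h2
        · exact hlast _ μ₃ h3
        · exact hlast _ μ₄ h4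
      · rcases hT with rfl | rfl | rfl | rfl
        · exact htrans i _ _ (hadp i _ (Or.inl rfl))
        · exact htrans i _ _ (hadp i _ (Or.inr (Or.inl rfl)))
        · exact htrans i _ _ (hadp i _ (Or.inr (Or.inr (Or.inl rfl))))
        · exact htrans i _ _ (hadp i _ (Or.inr (Or.inr (Or.inr rfl))))
    · rintro (_ | i)
      · -- the last vector: Fitting
        have hHtop : H ≠ ⊤ := by
          intro h
          have : vh ∈ H := by rw [h]; exact Submodule.mem_top
          rw [hHmem, hvh1] at this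
          exact one_ne_zero this
        have hrange : ∀ (T : E →ₗ[ℂ] E) (μ : ℂ), LinearMap.adjoint T v = μ • v →
            ∀ x, (T - ⟪vh, T vh⟫_ℂ • (LinearMap.id : E →ₗ[ℂ] E)) x ∈ H := by
          intro T μ hT x
          rw [hHmem, LinearMap.sub_apply, LinearMap.smul_apply, LinearMap.id_apply,
            inner_sub_right, inner_smul_right, hinner T μ hT, hdiag T μ hT, sub_self]
        obtain ⟨y, hy0, hy1, hy2⟩ := exists_joint_kernel228
          (Z - ⟪vh, Z vh⟫_ℂ • LinearMap.id) (U - ⟪vh, U vh⟫_ℂ • LinearMap.id)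
          (by
            intro x
            simp only [LinearMap.sub_apply, LinearMap.smul_apply, LinearMap.id_apply, map_sub,
              map_smul, hZU]
            module)
          H hHtop (hrange Z μ₁ h1) (hrange U μ₃ h3)
        refine ⟨y, hy0, ?_, ?_⟩
        · rw [LinearMap.sub_apply, LinearMap.smul_apply, LinearMap.id_apply, sub_eq_zero] at hy1
          exact hy1
        · rw [LinearMap.sub_apply, LinearMap.smul_apply, LinearMap.id_apply, sub_eq_zero] at hy2
          exact hy2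
      · obtain ⟨y, hy0, hy1, hy2⟩ := heig i
        refine ⟨(y : E), fun h => hy0 (Subtype.ext h), ?_, ?_⟩
        · have := congrArg Subtype.val hy1
          simpa [Submodule.coe_inner] using this
        · have := congrArg Subtype.val hy2
          simpa [Submodule.coe_inner] using this

/-! ## 5. The diagonal formula -/

/-- **Simultaneous Schur form, diagonal formula.**  `Z, Z', U, B` commuting, `Z Z' = 1`.
There is an orthonormal basis `e` (indexed by a finite type of cardinality `finrank`) with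
`⟪e i, B Z^k U^m e i⟫ = x i * b i ^ k * l i ^ m`, `⟪e i, B Z'^k U^m e i⟫ = x i * (b i)⁻¹ ^ k * l i ^ m`,
`b i ≠ 0`, and `(b i, l i)` is a joint eigenvalue of `(Z, U)`. -/
theorem exists_schur_diag228 (E : Type) [NormedAddCommGroup E] [InnerProductSpace ℂ E]
    [FiniteDimensional ℂ E] (Z Z' U B : E →ₗ[ℂ] E)
    (hZZ' : ∀ x, Z (Z' x) = x) (hZ'Z : ∀ x, Z' (Z x) = x)
    (hZU : ∀ x, Z (U x) = U (Z x)) (hZB : ∀ x, Z (B x) = B (Z x))
    (hZ'U : ∀ x, Z' (U x) = U (Z' x)) (hZ'B : ∀ x, Z' (B x) = B (Z' x))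
    (hUB : ∀ x, U (B x) = B (U x)) :
    ∃ (ι : Type) (_ : Fintype ι) (e : ι → E) (b l x : ι → ℂ),
      Fintype.card ι = finrank ℂ E ∧ Orthonormal ℂ e ∧
      (∀ p : E, ∑ i, ‖⟪e i, p⟫_ℂ‖ ^ 2 = ‖p‖ ^ 2) ∧
      (∀ i, b i ≠ 0) ∧
      (∀ i (k m : ℕ), ⟪e i, B ((Z ^ k) ((U ^ m) (e i)))⟫_ℂ = x i * b i ^ k * l i ^ m) ∧
      (∀ i (k m : ℕ), ⟪e i, B ((Z' ^ k) ((U ^ m) (e i)))⟫_ℂ = x i * (b i)⁻¹ ^ k * l i ^ m) ∧
      ∀ i, ∃ y : E, y ≠ 0 ∧ Z y = b i • y ∧ U y = l i • y := by
  obtain ⟨ι, hι, e, L, hcard, horth, hperp, hadp, heig⟩ :=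
    exists_schur228 (finrank ℂ E) E Z Z' U B rfl (fun x => by rw [hZZ', hZ'Z]) hZU hZB hZ'U
      hZ'B hUB
  have he1 : ∀ i, ⟪e i, e i⟫_ℂ = 1 := fun i => by
    rw [inner_self_eq_norm_sq_to_K, horth.1 i]
    simp
  have hAZ := fun i => hadp i Z (Or.inl rfl)
  have hAZ' := fun i => hadp i Z' (Or.inr (Or.inl rfl))
  have hAU := fun i => hadp i U (Or.inr (Or.inr (Or.inl rfl)))
  have hAB := fun i => hadp i B (Or.inr (Or.inr (Or.inr rfl)))
  have hbb' : ∀ i, ⟪e i, Z (e i)⟫_ℂ * ⟪e i, Z' (e i)⟫_ℂ = 1 := by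
    intro i
    have h := ((hAZ i).comp (hAZ' i)).inner_eq (he1 i) (hperp i)
    rw [LinearMap.comp_apply, hZZ', he1] at h
    exact h.symm
  have hb0 : ∀ i, ⟪e i, Z (e i)⟫_ℂ ≠ 0 := fun i h => by
    have := hbb' i
    rw [h, zero_mul] at this
    exact zero_ne_one this
  have hb' : ∀ i, ⟪e i, Z' (e i)⟫_ℂ = (⟪e i, Z (e i)⟫_ℂ)⁻¹ := fun i =>
    eq_inv_of_mul_eq_one_right (hbb' i)
  -- the basis
  have hspan : (⊤ : Submodule ℂ E) ≤ Submodule.span ℂ (Set.range e) := by
    rw [horth.linearIndependent.span_eq_top_of_card_eq_finrank' hcard]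
  refine ⟨ι, hι, e, fun i => ⟪e i, Z (e i)⟫_ℂ, fun i => ⟪e i, U (e i)⟫_ℂ,
    fun i => ⟪e i, B (e i)⟫_ℂ, hcard, horth, ?_, hb0, ?_, ?_, heig⟩
  · intro p
    have := (OrthonormalBasis.mk horth hspan).sum_sq_norm_inner_right p
    simpa using this
  · intro i k m
    have h := ((hAB i).comp (((hAZ i).pow k).comp ((hAU i).pow m))).inner_eq (he1 i) (hperp i)
    simpa [mul_assoc] using h
  · intro i k m
    have h := ((hAB i).comp (((hAZ' i).pow k).comp ((hAU i).pow m))).inner_eq (he1 i) (hperp i)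
    rw [hb' i] at h
    simpa [mul_assoc] using h

end Fermat.Agent.LT.T7.H228
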