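import Mathlib
import Fermat.Agent.LT.T7.H228.SchurAbs

/-!
# Row LT, tower T7, leaf T7.L2.3.5.5 `SD534.SchurSeqC` (registry 2183): the abstract core, part 2
(helper228)

OFF-MAIN.  Mathlib only (+ `SchurAbs.lean`).  `clsSpan228` and `SchurSeqC228` are copies of
`SD534.clsSpan` and `SD534.SchurSeqC` (helper534@b2ea72787 `DownBasisSpec.lean` b2d5929f);
`schurSeqC_core228 : SchurSeqC228`.  The one-line VERBATIM transfer is in `SchurSeqTop.lean`.
-/

set_option autoImplicit false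
set_option linter.unusedSectionVars false
set_option linter.unusedVariables false
set_option linter.style.haveILetI false

open scoped ComplexConjugate InnerProductSpace
open Module

noncomputable section

namespace Fermat.Agent.LT.T7.H228

/-- Copy of `SD534.clsSpan`. -/
def clsSpan228 {M A : Type} [AddCommGroup M] [Module ℂ M] (w : ℕ → M) (J : Set ℕ) (cl : ℕ → A)
    (a : A) : Submodule ℂ M :=
  Submodule.span ℂ {f : M | ∃ j : ℕ, j ∈ J ∧ cl j = a ∧ f = w j}

/-- A positive definite hermitian form on the subspace `Wm`, linear in the first variable. -/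
structure IsForm228 {M : Type} [AddCommGroup M] [Module ℂ M] (form : M → M → ℂ)
    (Wm : Submodule ℂ M) : Prop where
  hadd : ∀ x ∈ Wm, ∀ y ∈ Wm, ∀ z ∈ Wm, form (x + y) z = form x z + form y z
  hsmul : ∀ (a : ℂ), ∀ x ∈ Wm, ∀ y ∈ Wm, form (a • x) y = a * form x y
  hconj : ∀ x ∈ Wm, ∀ y ∈ Wm, form y x = conj (form x y)
  hnonneg : ∀ x ∈ Wm, 0 ≤ (form x x).re
  hdefinite : ∀ x ∈ Wm, form x x = 0 → x = 0

section Form

variable {M : Type} [AddCommGroup M] [Module ℂ M] {form : M → M → ℂ} {Wm : Submodule ℂ M}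

theorem IsForm228.add_right (h : IsForm228 form Wm) {x y z : M} (hx : x ∈ Wm) (hy : y ∈ Wm)
    (hz : z ∈ Wm) : form x (y + z) = form x y + form x z := by
  rw [h.hconj (y + z) (Wm.add_mem hy hz) x hx, h.hadd y hy z hz x hx, map_add,
    ← h.hconj y hy x hx, ← h.hconj z hz x hx]

theorem IsForm228.smul_right (h : IsForm228 form Wm) (t : ℂ) {x y : M} (hx : x ∈ Wm)
    (hy : y ∈ Wm) : form x (t • y) = conj t * form x y := by
  rw [h.hconj (t • y) (Wm.smul_mem t hy) x hx, h.hsmul t y hy x hx, map_mul, ← h.hconj y hy x hx]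

theorem IsForm228.zero_right (h : IsForm228 form Wm) {x : M} (hx : x ∈ Wm) : form x 0 = 0 := by
  have := h.smul_right 0 hx Wm.zero_mem
  rw [zero_smul, map_zero, zero_mul] at this
  exact this

theorem IsForm228.zero_left (h : IsForm228 form Wm) {x : M} (hx : x ∈ Wm) : form 0 x = 0 := by
  have := h.hsmul 0 0 Wm.zero_mem x hx
  rw [zero_smul, zero_mul] at this
  exact this

/-- The inner product structure on a subspace of `Wm` (Mathlib convention: linear in the SECOND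
variable, so `⟪x, y⟫ = form y x`). -/
@[reducible]
def IsForm228.core (h : IsForm228 form Wm) (N : Submodule ℂ M) (hN : N ≤ Wm) :
    InnerProductSpace.Core ℂ N where
  inner x y := form (y : M) (x : M)
  conj_inner_symm x y := (h.hconj (x : M) (hN x.2) (y : M) (hN y.2)).symm
  re_inner_nonneg x := h.hnonneg (x : M) (hN x.2)
  add_left x y z := h.add_right (hN z.2) (hN x.2) (hN y.2)
  smul_left x y r := h.smul_right r (hN y.2) (hN x.2)
  definite x hx := Subtype.ext (h.hdefinite (x : M) (hN x.2) hx)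

end Form

/-! ## The class spaces -/

section PerClass

variable {M : Type} [AddCommGroup M] [Module ℂ M] {form : M → M → ℂ} {Wm : Submodule ℂ M}

/-- The restriction of a map to a subspace on which it is linear. -/
def mkEnd228 (N : Submodule ℂ M) (T : M → M) (hT : ∀ x ∈ N, T x ∈ N)
    (hadd : ∀ x ∈ N, ∀ y ∈ N, T (x + y) = T x + T y)
    (hsmul : ∀ (t : ℂ), ∀ x ∈ N, T (t • x) = t • T x) : N →ₗ[ℂ] N where
  toFun x := ⟨T x, hT x x.2⟩
  map_add' x y := Subtype.ext (hadd x x.2 y y.2)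
  map_smul' t x := Subtype.ext (hsmul t x x.2)

theorem mkEnd228_apply (N : Submodule ℂ M) (T : M → M) (hT : ∀ x ∈ N, T x ∈ N)
    (hadd : ∀ x ∈ N, ∀ y ∈ N, T (x + y) = T x + T y)
    (hsmul : ∀ (t : ℂ), ∀ x ∈ N, T (t • x) = t • T x) (x : N) :
    ((mkEnd228 N T hT hadd hsmul x : N) : M) = T x := rfl

theorem mkEnd228_pow (N : Submodule ℂ M) (T : M → M) (hT : ∀ x ∈ N, T x ∈ N)
    (hadd : ∀ x ∈ N, ∀ y ∈ N, T (x + y) = T x + T y)
    (hsmul : ∀ (t : ℂ), ∀ x ∈ N, T (t • x) = t • T x) (m : ℕ) (x : N) :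
    ((((mkEnd228 N T hT hadd hsmul) ^ m) x : N) : M) = T^[m] x := by
  induction m generalizing x with
  | zero => rfl
  | succ m ih =>
    rw [pow_succ, Module.End.mul_apply, ih, Function.iterate_succ_apply, mkEnd228_apply]

/-- **One class.**  `N ≤ Wm` spanned by the orthonormal family `w j`, `j ∈ s`; `Zk`, `U`, `B`
linear on `N`, preserving `N`, commuting there, `Zk` a group action. -/
theorem perClass228 (h : IsForm228 form Wm) (N : Submodule ℂ M) (hN : N ≤ Wm)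
    (s : Finset ℕ) (w : ℕ → M) (hwN : ∀ j ∈ s, w j ∈ N)
    (hspan : N ≤ Submodule.span ℂ (w '' (s : Set ℕ)))
    (hw1 : ∀ j ∈ s, form (w j) (w j) = 1)
    (hw0 : ∀ i ∈ s, ∀ j ∈ s, i ≠ j → form (w i) (w j) = 0)
    (Zk : ℤ → M → M) (U B : M → M)
    (hladd : ∀ x ∈ N, ∀ y ∈ N,
      U (x + y) = U x + U y ∧ B (x + y) = B x + B y ∧ ∀ k : ℤ, Zk k (x + y) = Zk k x + Zk k y)
    (hlsmul : ∀ (t : ℂ), ∀ x ∈ N,
      U (t • x) = t • U x ∧ B (t • x) = t • B x ∧ ∀ k : ℤ, Zk k (t • x) = t • Zk k x)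
    (hpres : ∀ x ∈ N, U x ∈ N ∧ B x ∈ N ∧ ∀ k : ℤ, Zk k x ∈ N)
    (hcomm : ∀ x ∈ N,
      B (U x) = U (B x) ∧ (∀ k : ℤ, B (Zk k x) = Zk k (B x)) ∧
        ∀ k : ℤ, U (Zk k x) = Zk k (U x))
    (hgrp : ∀ x ∈ N, Zk 0 x = x ∧ ∀ k k' : ℤ, Zk (k + k') x = Zk k (Zk k' x)) :
    ∃ (e : ℕ → M) (b l x : ℕ → ℂ),
      (∀ j ∈ s, e j ∈ N) ∧
      (∀ j ∈ s, form (e j) (e j) = 1) ∧
      (∀ i ∈ s, ∀ j ∈ s, i ≠ j → form (e i) (e j) = 0) ∧
      (∀ χ ∈ Wm, ∑ j ∈ s, ‖form χ (e j)‖ ^ 2 = ∑ j ∈ s, ‖form χ (w j)‖ ^ 2) ∧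
      (∀ j ∈ s, ∀ (k : ℤ) (m : ℕ),
        form (B (Zk k (U^[m] (e j)))) (e j) = x j * b j ^ k * l j ^ m) ∧
      ∀ j ∈ s, ∃ y ∈ N, y ≠ 0 ∧ Zk 1 y = b j • y ∧ U y = l j • y := by
  classical
  letI : NormedAddCommGroup N :=
    @InnerProductSpace.Core.toNormedAddCommGroup ℂ N _ _ _ (h.core N hN)
  letI : InnerProductSpace ℂ N := InnerProductSpace.ofCore (h.core N hN).toCore
  have hinner : ∀ x y : N, ⟪x, y⟫_ℂ = form (y : M) (x : M) := fun _ _ => rfl
  -- the orthonormal basis `w`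
  set wN : s → N := fun j => ⟨w j, hwN j j.2⟩ with hwNdef
  have hworth : Orthonormal ℂ wN := by
    rw [orthonormal_iff_ite]
    intro i j
    rw [hinner]
    by_cases hij : i = j
    · subst hij
      rw [if_pos rfl]
      exact hw1 i i.2
    · rw [if_neg hij]
      exact hw0 j j.2 i i.2 (fun h' => hij (Subtype.ext h'.symm))
  have hwspan : (⊤ : Submodule ℂ N) ≤ Submodule.span ℂ (Set.range wN) := by
    have himg : (N.subtype '' Set.range wN) = w '' (s : Set ℕ) := by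
      ext m
      constructor
      · rintro ⟨_, ⟨j, rfl⟩, rfl⟩
        exact ⟨j.1, j.2, rfl⟩
      · rintro ⟨j, hj, rfl⟩
        exact ⟨wN ⟨j, hj⟩, ⟨⟨j, hj⟩, rfl⟩, rfl⟩
    have hmap : (Submodule.span ℂ (Set.range wN)).map N.subtype
        = Submodule.span ℂ (w '' (s : Set ℕ)) := by
      rw [Submodule.map_span, himg]
    intro x _
    have hx : (x : M) ∈ (Submodule.span ℂ (Set.range wN)).map N.subtype := by
      rw [hmap]
      exact hspan x.2
    obtain ⟨y, hy, hyx⟩ := hx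
    have hyx' : y = x := Subtype.ext hyx
    rw [← hyx']
    exact hy
  set Wb : OrthonormalBasis s ℂ N := OrthonormalBasis.mk hworth hwspan with hWb
  have hWbc : ∀ j, Wb j = wN j := fun j => by rw [hWb, OrthonormalBasis.coe_mk]
  haveI : FiniteDimensional ℂ N := Module.Finite.of_basis Wb.toBasis
  have hfr : finrank ℂ N = Fintype.card s := Module.finrank_eq_card_basis Wb.toBasis
  -- the operators
  set Ul : N →ₗ[ℂ] N := mkEnd228 N U (fun x hx => (hpres x hx).1)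
    (fun x hx y hy => (hladd x hx y hy).1) (fun t x hx => (hlsmul t x hx).1) with hUl
  set Bl : N →ₗ[ℂ] N := mkEnd228 N B (fun x hx => (hpres x hx).2.1)
    (fun x hx y hy => (hladd x hx y hy).2.1) (fun t x hx => (hlsmul t x hx).2.1) with hBl
  set Zl : N →ₗ[ℂ] N := mkEnd228 N (Zk 1) (fun x hx => (hpres x hx).2.2 1)
    (fun x hx y hy => (hladd x hx y hy).2.2 1) (fun t x hx => (hlsmul t x hx).2.2 1) with hZl
  set Zl' : N →ₗ[ℂ] N := mkEnd228 N (Zk (-1)) (fun x hx => (hpres x hx).2.2 (-1))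
    (fun x hx y hy => (hladd x hx y hy).2.2 (-1)) (fun t x hx => (hlsmul t x hx).2.2 (-1))
    with hZl'
  have hZZ' : ∀ x : N, Zl (Zl' x) = x := by
    intro x
    apply Subtype.ext
    show Zk 1 (Zk (-1) (x : M)) = x
    rw [← (hgrp x x.2).2 1 (-1)]
    simpa using (hgrp x x.2).1
  have hZ'Z : ∀ x : N, Zl' (Zl x) = x := by
    intro x
    apply Subtype.ext
    show Zk (-1) (Zk 1 (x : M)) = x
    rw [← (hgrp x x.2).2 (-1) 1]
    simpa using (hgrp x x.2).1
  obtain ⟨ι, hι, e', b', l', x', hcard, horth, hpars, hb0, hdiag, hdiag', heig⟩ :=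
    exists_schur_diag228 N Zl Zl' Ul Bl hZZ' hZ'Z
      (fun x => Subtype.ext ((hcomm x x.2).2.2 1).symm)
      (fun x => Subtype.ext ((hcomm x x.2).2.1 1).symm)
      (fun x => Subtype.ext ((hcomm x x.2).2.2 (-1)).symm)
      (fun x => Subtype.ext ((hcomm x x.2).2.1 (-1)).symm)
      (fun x => Subtype.ext (hcomm x x.2).1.symm)
  have hcs : Fintype.card s = Fintype.card ι := hfr.symm.trans hcard.symm
  set σ : s ≃ ι := Fintype.equivOfCardEq hcs with hσ
  have he1 : ∀ i, ⟪e' i, e' i⟫_ℂ = 1 := fun i => by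
    rw [inner_self_eq_norm_sq_to_K, horth.1 i]
    simp
  -- powers of the shift
  have hzk : ∀ (n : ℕ) (y : N), Zk (n : ℤ) (y : M) = (((Zl ^ n) y : N) : M) := by
    intro n
    induction n with
    | zero =>
      intro y
      simpa using (hgrp y y.2).1
    | succ n ih =>
      intro y
      rw [pow_succ, Module.End.mul_apply, ← ih (Zl y), Nat.cast_succ, (hgrp y y.2).2 (n : ℤ) 1]
      rfl
  have hzk' : ∀ (n : ℕ) (y : N), Zk (-(n : ℤ)) (y : M) = (((Zl' ^ n) y : N) : M) := by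
    intro n
    induction n with
    | zero =>
      intro y
      simpa using (hgrp y y.2).1
    | succ n ih =>
      intro y
      rw [pow_succ, Module.End.mul_apply, ← ih (Zl' y), Nat.cast_succ, neg_add,
        (hgrp y y.2).2 (-(n : ℤ)) (-1)]
      rfl
  have hum : ∀ (m : ℕ) (y : N), U^[m] (y : M) = (((Ul ^ m) y : N) : M) := fun m y =>
    (mkEnd228_pow N U _ _ _ m y).symm
  refine ⟨fun j => if hj : j ∈ s then ((e' (σ ⟨j, hj⟩) : N) : M) else 0,
    fun j => if hj : j ∈ s then b' (σ ⟨j, hj⟩) else 0,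
    fun j => if hj : j ∈ s then l' (σ ⟨j, hj⟩) else 0,
    fun j => if hj : j ∈ s then x' (σ ⟨j, hj⟩) else 0, ?_, ?_, ?_, ?_, ?_, ?_⟩
  · intro j hj
    simp only [dif_pos hj]
    exact (e' (σ ⟨j, hj⟩)).2
  · intro j hj
    simp only [dif_pos hj]
    exact he1 (σ ⟨j, hj⟩)
  · intro i hi j hj hij
    simp only [dif_pos hi, dif_pos hj]
    have hne : σ ⟨j, hj⟩ ≠ σ ⟨i, hi⟩ := fun h' =>
      hij (congrArg Subtype.val (σ.injective h')).symm
    exact horth.2 hne
  · intro χ hχ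
    -- the projection of `χ`
    set p : N := ∑ j : s, form χ (w j) • wN j with hp
    have hkey : ∀ y : N, form χ (y : M) = ⟪y, p⟫_ℂ := by
      intro y
      have hy : y ∈ Submodule.span ℂ (Set.range wN) := hwspan Submodule.mem_top
      induction hy using Submodule.span_induction with
      | mem y hy =>
        obtain ⟨j, rfl⟩ := hy
        rw [hp, hworth.inner_right_fintype]
      | zero =>
        rw [inner_zero_left]
        exact h.zero_right hχ
      | add y y' _ _ hy hy' =>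
        rw [inner_add_left, ← hy, ← hy']
        exact h.add_right hχ (hN y.2) (hN y'.2)
      | smul t y _ hy =>
        rw [inner_smul_left, ← hy]
        exact h.smul_right t hχ (hN y.2)
    have h1 : ∑ j ∈ s, ‖form χ (if hj : j ∈ s then ((e' (σ ⟨j, hj⟩) : N) : M) else 0)‖ ^ 2
        = ‖p‖ ^ 2 := by
      rw [← hpars p, ← Finset.sum_coe_sort s, ← Equiv.sum_comp σ]
      refine Finset.sum_congr rfl fun j _ => ?_
      rw [dif_pos j.2, hkey]
    have h2 : ∑ j ∈ s, ‖form χ (w j)‖ ^ 2 = ‖p‖ ^ 2 := by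
      rw [← Wb.sum_sq_norm_inner_right p, ← Finset.sum_coe_sort s]
      refine Finset.sum_congr rfl fun j _ => ?_
      rw [hWbc, ← hkey]
    rw [h1, h2]
  · intro j hj k m
    simp only [dif_pos hj]
    set i := σ ⟨j, hj⟩ with hi
    rw [hum m (e' i)]
    obtain ⟨n, rfl | rfl⟩ := Int.eq_nat_or_neg k
    · rw [hzk n, zpow_natCast, ← hdiag i n m]
      rfl
    · rw [hzk' n, zpow_neg, zpow_natCast, ← inv_pow, ← hdiag' i n m]
      rfl
  · intro j hj
    simp only [dif_pos hj]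
    obtain ⟨y, hy0, hy1, hy2⟩ := heig (σ ⟨j, hj⟩)
    refine ⟨(y : M), y.2, fun h' => hy0 (Subtype.ext h'), ?_, ?_⟩
    · exact congrArg Subtype.val hy1
    · exact congrArg Subtype.val hy2

end PerClass

/-! ## Regrouping a series class by class -/

section Regroup

variable {A : Type}

/-- Two nonnegative families on `J` with the same sums on every (finite) class have the same
sum. -/
theorem hasSum_regroup228 (J : Set ℕ) (cl : ℕ → A) (fE fW : ℕ → ℝ) (hE0 : ∀ j, 0 ≤ fE j)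
    (hW0 : ∀ j, 0 ≤ fW j) (hfin : ∀ j₀ ∈ J, {j : ℕ | j ∈ J ∧ cl j = cl j₀}.Finite)
    (hcls : ∀ j₀ (hj₀ : j₀ ∈ J),
      ∑ j ∈ (hfin j₀ hj₀).toFinset, fE j = ∑ j ∈ (hfin j₀ hj₀).toFinset, fW j)
    (S : ℝ) (hW : HasSum (fun j : J => fW j) S) : HasSum (fun j : J => fE j) S := by
  classical
  have hW' : HasSum (J.indicator fW) S := hasSum_subtype_iff_indicator.1 hW
  refine hasSum_subtype_iff_indicator.2 ?_
  set gE := J.indicator fE with hgE
  set gW := J.indicator fW with hgW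
  have hgE0 : ∀ j, 0 ≤ gE j := Set.indicator_nonneg fun j _ => hE0 j
  have hgW0 : ∀ j, 0 ≤ gW j := Set.indicator_nonneg fun j _ => hW0 j
  -- saturated finite sets
  have hK : ∀ F : Finset ℕ, ∃ F' : Finset ℕ, F ⊆ F' ∧
      (∀ i ∈ F', i ∈ J → ∀ i' ∈ J, cl i' = cl i → i' ∈ F') ∧
      ∑ j ∈ F', gE j = ∑ j ∈ F', gW j := by
    intro F
    induction F using Finset.induction_on with
    | empty => exact ⟨∅, Finset.Subset.refl _, fun i hi => absurd hi (Finset.notMem_empty i), rfl⟩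
    | insert j F₀ hj ih =>
      obtain ⟨F', hsub, hsat, hsum⟩ := ih
      by_cases hjF : j ∈ F'
      · exact ⟨F', Finset.insert_subset hjF hsub, hsat, hsum⟩
      by_cases hjJ : j ∈ J
      · -- add the class of `j`
        set C := (hfin j hjJ).toFinset with hC
        have hCmem : ∀ i, i ∈ C ↔ i ∈ J ∧ cl i = cl j := fun i => by
          rw [hC, Set.Finite.mem_toFinset]
          rfl
        have hdisj : Disjoint F' C := by
          rw [Finset.disjoint_left]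
          intro i hiF hiC
          obtain ⟨hiJ, hicl⟩ := (hCmem i).1 hiC
          exact hjF (hsat i hiF hiJ j hjJ hicl.symm)
        refine ⟨F' ∪ C, ?_, ?_, ?_⟩
        · intro i hi
          rcases Finset.mem_insert.1 hi with rfl | hi
          · exact Finset.mem_union_right _ ((hCmem _).2 ⟨hjJ, rfl⟩)
          · exact Finset.mem_union_left _ (hsub hi)
        · intro i hi hiJ i' hi'J hcl
          rcases Finset.mem_union.1 hi with hi | hi
          · exact Finset.mem_union_left _ (hsat i hi hiJ i' hi'J hcl)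
          · obtain ⟨_, hicl⟩ := (hCmem i).1 hi
            exact Finset.mem_union_right _ ((hCmem _).2 ⟨hi'J, hcl.trans hicl⟩)
        · rw [Finset.sum_union hdisj, Finset.sum_union hdisj, hsum]
          congr 1
          have h1 : ∑ x ∈ C, gE x = ∑ x ∈ C, fE x :=
            Finset.sum_congr rfl fun i hi => Set.indicator_of_mem ((hCmem i).1 hi).1 fE
          have h2 : ∑ x ∈ C, gW x = ∑ x ∈ C, fW x :=
            Finset.sum_congr rfl fun i hi => Set.indicator_of_mem ((hCmem i).1 hi).1 fW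
          rw [h1, h2]
          exact hcls j hjJ
      · -- `j ∉ J`: both terms vanish
        refine ⟨insert j F', Finset.insert_subset_insert j hsub, ?_, ?_⟩
        · intro i hi hiJ i' hi'J hcl
          rcases Finset.mem_insert.1 hi with rfl | hi
          · exact absurd hiJ hjJ
          · exact Finset.mem_insert_of_mem (hsat i hi hiJ i' hi'J hcl)
        · rw [Finset.sum_insert hjF, Finset.sum_insert hjF, hsum, hgE, hgW,
            Set.indicator_of_notMem hjJ, Set.indicator_of_notMem hjJ]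
  have hbd : ∀ F : Finset ℕ, ∑ j ∈ F, gE j ≤ S := by
    intro F
    obtain ⟨F', hsub, -, hsum⟩ := hK F
    calc ∑ j ∈ F, gE j ≤ ∑ j ∈ F', gE j :=
          Finset.sum_le_sum_of_subset_of_nonneg hsub fun i _ _ => hgE0 i
      _ = ∑ j ∈ F', gW j := hsum
      _ ≤ S := sum_le_hasSum F' (fun i _ => hgW0 i) hW'
  have hsE : Summable gE := summable_of_sum_le hgE0 hbd
  have hle : ∑' j, gE j ≤ S := hsE.tsum_le_of_sum_le hbd
  have hge : S ≤ ∑' j, gE j := by
    refine hasSum_le_of_sum_le hW' fun F => ?_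
    obtain ⟨F', hsub, -, hsum⟩ := hK F
    calc ∑ j ∈ F, gW j ≤ ∑ j ∈ F', gW j :=
          Finset.sum_le_sum_of_subset_of_nonneg hsub fun i _ _ => hgW0 i
      _ = ∑ j ∈ F', gE j := hsum.symm
      _ ≤ ∑' j, gE j := sum_le_hasSum F' (fun i _ => hgE0 i) hsE.hasSum
  have : ∑' j, gE j = S := le_antisymm hle hge
  rw [← this]
  exact hsE.hasSum

end Regroup

/-! ## The statement and the proof -/

/-- Copy of `SD534.SchurSeqC` (with `clsSpan228`). -/
def SchurSeqC228 : Prop :=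
  ∀ (M : Type) [AddCommGroup M] [Module ℂ M] (form : M → M → ℂ) (Wm : Submodule ℂ M)
    (A : Type) (w : ℕ → M) (J : Set ℕ) (cl : ℕ → A) (Zk : ℤ → M → M) (U B : M → M),
    (∀ x ∈ Wm, ∀ y ∈ Wm, ∀ z ∈ Wm, form (x + y) z = form x z + form y z) →
    (∀ (a : ℂ), ∀ x ∈ Wm, ∀ y ∈ Wm, form (a • x) y = a * form x y) →
    (∀ x ∈ Wm, ∀ y ∈ Wm, form y x = conj (form x y)) →
    (∀ x ∈ Wm, 0 ≤ (form x x).re) →
    (∀ x ∈ Wm, form x x = 0 → x = 0) →
    (∀ j ∈ J, w j ∈ Wm) →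
    (∀ j ∈ J, form (w j) (w j) = 1) →
    (∀ i ∈ J, ∀ j ∈ J, i ≠ j → form (w i) (w j) = 0) →
    (∀ χ ∈ Wm, HasSum (fun j : J => ‖form χ (w j)‖ ^ 2) (form χ χ).re) →
    (∀ j₀ ∈ J, {j : ℕ | j ∈ J ∧ cl j = cl j₀}.Finite) →
    (∀ a : A, ∀ x ∈ clsSpan228 w J cl a, ∀ y ∈ clsSpan228 w J cl a,
      U (x + y) = U x + U y ∧ B (x + y) = B x + B y ∧ ∀ k : ℤ, Zk k (x + y) = Zk k x + Zk k y) →
    (∀ (a : A) (t : ℂ), ∀ x ∈ clsSpan228 w J cl a,
      U (t • x) = t • U x ∧ B (t • x) = t • B x ∧ ∀ k : ℤ, Zk k (t • x) = t • Zk k x) →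
    (∀ a : A, ∀ x ∈ clsSpan228 w J cl a,
      U x ∈ clsSpan228 w J cl a ∧ B x ∈ clsSpan228 w J cl a ∧
        ∀ k : ℤ, Zk k x ∈ clsSpan228 w J cl a) →
    (∀ a : A, ∀ x ∈ clsSpan228 w J cl a,
      B (U x) = U (B x) ∧ (∀ k : ℤ, B (Zk k x) = Zk k (B x)) ∧
        ∀ k : ℤ, U (Zk k x) = Zk k (U x)) →
    (∀ a : A, ∀ x ∈ clsSpan228 w J cl a,
      Zk 0 x = x ∧ ∀ k k' : ℤ, Zk (k + k') x = Zk k (Zk k' x)) →
    ∃ (e : ℕ → M) (b l x : ℕ → ℂ),
      (∀ j ∈ J, e j ∈ clsSpan228 w J cl (cl j)) ∧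
      (∀ j ∈ J, form (e j) (e j) = 1) ∧
      (∀ i ∈ J, ∀ j ∈ J, i ≠ j → form (e i) (e j) = 0) ∧
      (∀ χ ∈ Wm, HasSum (fun j : J => ‖form χ (e j)‖ ^ 2) (form χ χ).re) ∧
      (∀ j ∈ J, ∀ (k : ℤ) (m : ℕ),
        form (B (Zk k (U^[m] (e j)))) (e j) = x j * b j ^ k * l j ^ m) ∧
      ∀ j ∈ J, ∃ y ∈ clsSpan228 w J cl (cl j), y ≠ 0 ∧ Zk 1 y = b j • y ∧ U y = l j • y

section Main

variable {M : Type} [AddCommGroup M] [Module ℂ M] {form : M → M → ℂ} {Wm : Submodule ℂ M}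
  {A : Type}

theorem clsSpan_le228 (w : ℕ → M) (J : Set ℕ) (cl : ℕ → A) (hwm : ∀ j ∈ J, w j ∈ Wm) (a : A) :
    clsSpan228 w J cl a ≤ Wm := by
  unfold clsSpan228
  rw [Submodule.span_le]
  rintro _ ⟨j, hj, -, rfl⟩
  exact hwm j hj

/-- Different classes are orthogonal. -/
theorem form_cross228 (h : IsForm228 form Wm) (w : ℕ → M) (J : Set ℕ) (cl : ℕ → A)
    (hwm : ∀ j ∈ J, w j ∈ Wm) (hw0 : ∀ i ∈ J, ∀ j ∈ J, i ≠ j → form (w i) (w j) = 0)
    {a a' : A} (haa' : a ≠ a') {x y : M} (hx : x ∈ clsSpan228 w J cl a)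
    (hy : y ∈ clsSpan228 w J cl a') : form x y = 0 := by
  have hle := clsSpan_le228 (Wm := Wm) w J cl hwm
  have step1 : ∀ j' ∈ J, cl j' = a' → ∀ x ∈ clsSpan228 w J cl a, form x (w j') = 0 := by
    intro j' hj' hcl x hx
    unfold clsSpan228 at hx
    induction hx using Submodule.span_induction with
    | mem x hx =>
      obtain ⟨i, hi, hicl, rfl⟩ := hx
      refine hw0 i hi j' hj' fun hij => haa' ?_
      rw [← hicl, ← hcl, hij]
    | zero => exact h.zero_left (hwm j' hj')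
    | add x x' hx hx' ihx ihx' =>
      rw [h.hadd x (hle a hx) x' (hle a hx') _ (hwm j' hj'), ihx, ihx', add_zero]
    | smul t x hx ihx =>
      rw [h.hsmul t x (hle a hx) _ (hwm j' hj'), ihx, mul_zero]
  have hxW : x ∈ Wm := hle a hx
  unfold clsSpan228 at hy
  induction hy using Submodule.span_induction with
  | mem y hy =>
    obtain ⟨j', hj', hcl, rfl⟩ := hy
    exact step1 j' hj' hcl x hx
  | zero => exact h.zero_right hxW
  | add y y' hy hy' ihy ihy' =>
    rw [h.add_right hxW (hle a' hy) (hle a' hy'), ihy, ihy', add_zero]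
  | smul t y hy ihy =>
    rw [h.smul_right t hxW (hle a' hy), ihy, mul_zero]

end Main

/-- **T7.L2.3.5.5** (abstract, Mathlib only): the copy `SchurSeqC228` of `SD534.SchurSeqC`. -/
theorem schurSeqC_core228 : SchurSeqC228 := by
  intro M _ _ form Wm A w J cl Zk U B hadd hsmul hconj hnn hdef hwm hw1 hw0 hpars hfin hladd
    hlsmul hpres hcomm hgrp
  classical
  have h : IsForm228 form Wm := ⟨hadd, hsmul, hconj, hnn, hdef⟩
  have hle := clsSpan_le228 (Wm := Wm) w J cl hwm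
  -- class by class
  have hper : ∀ a : A, ∃ (e : ℕ → M) (b l x : ℕ → ℂ),
      ∀ hfa : {j : ℕ | j ∈ J ∧ cl j = a}.Finite,
      (∀ j ∈ hfa.toFinset, e j ∈ clsSpan228 w J cl a) ∧
      (∀ j ∈ hfa.toFinset, form (e j) (e j) = 1) ∧
      (∀ i ∈ hfa.toFinset, ∀ j ∈ hfa.toFinset, i ≠ j → form (e i) (e j) = 0) ∧
      (∀ χ ∈ Wm, ∑ j ∈ hfa.toFinset, ‖form χ (e j)‖ ^ 2
        = ∑ j ∈ hfa.toFinset, ‖form χ (w j)‖ ^ 2) ∧
      (∀ j ∈ hfa.toFinset, ∀ (k : ℤ) (m : ℕ),
        form (B (Zk k (U^[m] (e j)))) (e j) = x j * b j ^ k * l j ^ m) ∧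
      ∀ j ∈ hfa.toFinset, ∃ y ∈ clsSpan228 w J cl a, y ≠ 0 ∧ Zk 1 y = b j • y ∧ U y = l j • y := by
    intro a
    by_cases hfa : {j : ℕ | j ∈ J ∧ cl j = a}.Finite
    · have hmem : ∀ j, j ∈ hfa.toFinset ↔ j ∈ J ∧ cl j = a := fun j => by
        rw [Set.Finite.mem_toFinset]
        rfl
      obtain ⟨e, b, l, x, hprops⟩ := perClass228 h (clsSpan228 w J cl a) (hle a) hfa.toFinset w
        (fun j hj => Submodule.subset_span ⟨j, ((hmem j).1 hj).1, ((hmem j).1 hj).2, rfl⟩)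
        (by
          unfold clsSpan228
          refine Submodule.span_mono ?_
          rintro _ ⟨j, hj, hcl, rfl⟩
          exact ⟨j, Finset.mem_coe.2 ((hmem j).2 ⟨hj, hcl⟩), rfl⟩)
        (fun j hj => hw1 j ((hmem j).1 hj).1)
        (fun i hi j hj hij => hw0 i ((hmem i).1 hi).1 j ((hmem j).1 hj).1 hij)
        Zk U B (hladd a) (hlsmul a) (hpres a) (hcomm a) (hgrp a)
      exact ⟨e, b, l, x, fun _ => hprops⟩
    · exact ⟨fun _ => 0, fun _ => 0, fun _ => 0, fun _ => 0, fun hfa' => absurd hfa' hfa⟩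
  choose e b l x hprops using hper
  have hmem : ∀ j₀ (hj₀ : j₀ ∈ J) (j : ℕ), j ∈ (hfin j₀ hj₀).toFinset ↔ j ∈ J ∧ cl j = cl j₀ :=
    fun j₀ hj₀ j => by
      rw [Set.Finite.mem_toFinset]
      rfl
  have hself : ∀ j (hj : j ∈ J), j ∈ (hfin j hj).toFinset := fun j hj =>
    (hmem j hj j).2 ⟨hj, rfl⟩
  refine ⟨fun j => e (cl j) j, fun j => b (cl j) j, fun j => l (cl j) j, fun j => x (cl j) j,
    ?_, ?_, ?_, ?_, ?_, ?_⟩
  · intro j hj
    exact (hprops (cl j) (hfin j hj)).1 j (hself j hj)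
  · intro j hj
    exact (hprops (cl j) (hfin j hj)).2.1 j (hself j hj)
  · intro i hi j hj hij
    by_cases hcl : cl i = cl j
    · have hi' : i ∈ (hfin j hj).toFinset := (hmem j hj i).2 ⟨hi, hcl⟩
      have := (hprops (cl j) (hfin j hj)).2.2.1 i hi' j (hself j hj) hij
      simp only [hcl]
      exact this
    · exact form_cross228 h w J cl hwm hw0 hcl ((hprops (cl i) (hfin i hi)).1 i (hself i hi))
        ((hprops (cl j) (hfin j hj)).1 j (hself j hj))
  · intro χ hχ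
    refine hasSum_regroup228 J cl (fun j => ‖form χ (e (cl j) j)‖ ^ 2)
      (fun j => ‖form χ (w j)‖ ^ 2) (fun j => by positivity) (fun j => by positivity) hfin ?_
      _ (hpars χ hχ)
    intro j₀ hj₀
    rw [← (hprops (cl j₀) (hfin j₀ hj₀)).2.2.2.1 χ hχ]
    refine Finset.sum_congr rfl fun j hj => ?_
    rw [((hmem j₀ hj₀ j).1 hj).2]
  · intro j hj k m
    exact (hprops (cl j) (hfin j hj)).2.2.2.2.1 j (hself j hj) k m
  · intro j hj
    exact (hprops (cl j) (hfin j hj)).2.2.2.2.2 j (hself j hj)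

end Fermat.Agent.LT.T7.H228
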