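import Mathlib
import Fermat.Agent.LT.T7.H534.DownBasisSpec
import Fermat.Agent.LT.T7.H228.SchurSeq

/-!
# Row LT, tower T7, leaf T7.L2.3.5.5 `SD534.SchurSeqC` (registry 2183): PROVED (helper228)

OFF-MAIN.  `schurSeqC228 : SD534.SchurSeqC` VERBATIM vs helper534@b2ea72787
`LT/T7/H534/DownBasisSpec.lean` (sha256 b2d5929f5cd243f8), from the Mathlib-only core
`schurSeqC_core228` (`SchurSeq.lean`, `SchurAbs.lean`): simultaneous Schur form of the commuting
operators `Zk 1`, `Zk (-1)`, `U`, `B` on every finite dimensional class space (common eigenvector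
of the adjoints, invariant orthogonal complement, induction on the dimension), multiplicativity
of the diagonal coefficients, joint eigenvalues by Fitting's lemma, Parseval regrouped class by
class.
-/

set_option autoImplicit false

noncomputable section

namespace Fermat.Agent.LT.T7.H228

theorem clsSpan_eq228 {M A : Type} [AddCommGroup M] [Module ℂ M] (w : ℕ → M) (J : Set ℕ)
    (cl : ℕ → A) (a : A) :
    Fermat.Agent.LT.T7.SD534.clsSpan w J cl a = clsSpan228 w J cl a := rfl

/-- **T7.L2.3.5.5** `SD534.SchurSeqC`, VERBATIM. -/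
theorem schurSeqC228 : Fermat.Agent.LT.T7.SD534.SchurSeqC := by
  intro M _ _ form Wm A w J cl Zk U B hadd hsmul hconj hnn hdef hwm hw1 hw0 hpars hfin hladd
    hlsmul hpres hcomm hgrp
  exact schurSeqC_core228 M form Wm A w J cl Zk U B hadd hsmul hconj hnn hdef hwm hw1 hw0 hpars
    hfin hladd hlsmul hpres hcomm hgrp

end Fermat.Agent.LT.T7.H228
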