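import Mathlib
import Fermat.Agent.LT.T5.H29.TwClosed

/-!
# Row LT, tower T7, leaf `AvgMatchC893` (helper228 spare): CONVERGENCE of the elliptic orbital
# integrals WITHOUT σ-regularity of the function

OFF-MAIN.  Vocabulary and tools: tower T5, leaf T5.07 of helper29 (`T5/H29/TwSpec.lean`,
`TwFinite.lean`, `TwClosed.lean`, byte-identical copies of the master tree).

`T5.LeafTwFinite` gives the integrability of `x ↦ φ♭(x⁻¹ δ σ(x))` on a strict fundamental
domain of the σ-centraliser for σ-REGULAR test functions.  Here the regularity is asked of the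
CLASS, not of the function: `P` is a set of elements of `GL₂(K)` which is stable under
σ-conjugation and whose members have elliptic regular norm.  Then for EVERY continuous function
`φ` with compact support and every `δ ∈ P`

    integrableOn_twTermP228 : IntegrableOn (twTerm r s φ δ) Fδ μ.

The proofs are the proofs of `twBound_of_leaves` and `leafTwFinite_of_twBound` (helper29) with
the class predicate threaded through.
-/

set_option autoImplicit false

open IsDedekindDomain NumberField MeasureTheory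
open scoped MatrixGroups Pointwise ENNReal

noncomputable section

namespace Fermat.Agent.LT.T7.H228

open Fermat.Agent.LT.H556.A0 Fermat.Agent.LT.T5 Fermat.Agent.LT Fermat.Agent.LT.T5.H29

attribute [local instance] Fermat.Agent.LT.T5.instMeasurableSpaceG
attribute [local instance] Fermat.Agent.LT.T5.H29.ratAction29

variable {K : Type} [Field K] [NumberField K]

/-- **The uniform bound for a class with elliptic regular norm** (no hypothesis on `φ` but the
compact support). -/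
theorem twBoundP228 (s : AdelicAut K) (l : ℕ) (k : Subfield K) (𝔫 : Ideal (𝓞 K))
    (hT : T1.T1Out K) (L : TwLeaves s l k 𝔫) (hcyc : IsCyclicOfDegree s l k)
    (μ : Measure (G K)) (r : G K) (hr : IsRayGen r) (hP : AutPreserves s 𝔫 μ r)
    (φ : G K → ℂ) (ht : HasCompactSupport φ)
    (P : GL (Fin 2) K → Prop)
    (hPc : ∀ γ δ : GL (Fin 2) K, P δ → P (γ * δ * (s.onRat γ)⁻¹))
    (hPr : ∀ δ : GL (Fin 2) K, P δ → IsEllRegOver k (s.normUpTo l δ)) :
    ∃ (S : Finset (GL (Fin 2) K)) (M : ℕ),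
      (∀ (x : G K) (δ : GL (Fin 2) K) (m : ℤ),
        φ (x⁻¹ * ratG δ * s.onG x * r ^ m) ≠ 0 → m.natAbs ≤ M) ∧
      ∀ x : G K, ∃ γ₀ : GL (Fin 2) K,
        ∀ (δ : GL (Fin 2) K) (m : ℤ), P δ → φ (x⁻¹ * ratG δ * s.onG x * r ^ m) ≠ 0 →
          γ₀⁻¹ * δ * s.onRat γ₀ ∈ S := by
  obtain ⟨M, hM⟩ := L.rayBound hT.adNorm μ r hr hP φ ht
  obtain ⟨c₁, hc₁⟩ := L.siegelTw hT L.box μ r hr hP φ ht M
  obtain ⟨c₀, hc₀pos, hred⟩ := hT.reduction
  obtain ⟨Ω, hΩ, hΩcov⟩ := L.mahler hT c₀ c₁ hc₀pos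
  obtain ⟨hray, hslabinv⟩ := L.raySlab hT.adNorm
  obtain ⟨hrc, hrcr, hrslab⟩ := hray r hr
  have hC : IsCompact (tsupport φ) := ht
  have hRfin : {m : ℤ | m.natAbs ≤ M}.Finite := by
    refine (Set.finite_Icc (-(M : ℤ)) (M : ℤ)).subset fun m hm => ?_
    simp only [Set.mem_ofPred_eq] at hm
    rw [Set.mem_Icc]
    constructor <;> omega
  have hR : IsCompact ((fun m : ℤ => r ^ (-m)) '' {m : ℤ | m.natAbs ≤ M}) :=
    (hRfin.image _).isCompact
  have hT2 : T2Space (G K) := hT.locComp.2.2.1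
  have hΩ' : IsCompact (s.onG '' Ω)⁻¹ := (hΩ.image hP.cont).inv
  have hC₂ : IsCompact
      (Ω * tsupport φ * ((fun m : ℤ => r ^ (-m)) '' {m : ℤ | m.natAbs ≤ M}) * (s.onG '' Ω)⁻¹) :=
    ((hΩ.mul hC).mul hR).mul hΩ'
  have hfin := L.ratFinite hT.discrete _ hC₂
  refine ⟨hfin.toFinset, M, hM, fun x => ?_⟩
  by_cases hx : ∃ (δ : GL (Fin 2) K) (m : ℤ), P δ ∧ φ (x⁻¹ * ratG δ * s.onG x * r ^ m) ≠ 0
  · obtain ⟨δ₁, m₁, hPδ₁, h₁⟩ := hx
    obtain ⟨j, hj⟩ := hrslab x
    obtain ⟨γ, t, hht, hct⟩ := hred (x * r ^ j)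
    have key : ∀ (γ' : GL (Fin 2) K) (δ : GL (Fin 2) K) (m : ℤ),
        twArg s r (ratG γ' * (x * r ^ j)) (γ' * δ * (s.onRat γ')⁻¹) m = twArg s r x δ m :=
      fun γ' δ m => (twArg_rat29 hP γ' (x * r ^ j) δ m).trans (twArg_ray29 hP hrc x j δ m)
    have htc : t ≤ c₁ := by
      by_contra hlt
      push Not at hlt
      have h2 := hc₁ (T1.ratG K γ * (x * r ^ j)) t hht hlt (γ * δ₁ * (s.onRat γ)⁻¹) m₁
        (hM x δ₁ m₁ h₁) (by
          have := key γ δ₁ m₁
          rw [twArg_def29, twArg_def29] at this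
          show φ ((ratG γ * (x * r ^ j))⁻¹ * ratG (γ * δ₁ * (s.onRat γ)⁻¹) *
            s.onG (ratG γ * (x * r ^ j)) * r ^ m₁) ≠ 0
          rw [this]
          exact h₁)
      exact L.upperNotReg hcyc _ h2 (hPr _ (hPc γ δ₁ hPδ₁))
    have hyslab : ratG γ * (x * r ^ j) ∈ slab K := hslabinv γ _ hj
    obtain ⟨γ', hγ'⟩ := hΩcov (ratG γ * (x * r ^ j)) hyslab t hht hct htc
    have hω : ratG (γ' * γ) * (x * r ^ j) ∈ Ω := by
      rw [map_mul, mul_assoc]
      exact hγ'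
    refine ⟨(γ' * γ)⁻¹, fun δ m _ hδ => ?_⟩
    rw [Set.Finite.mem_toFinset, Set.mem_ofPred_eq]
    have hg : twArg s r x δ m ∈ tsupport φ := subset_tsupport _ hδ
    have e1 : ratG ((γ' * γ)⁻¹⁻¹ * δ * s.onRat (γ' * γ)⁻¹)
        = ratG (γ' * γ) * (x * r ^ j)
          * twArg s r (ratG (γ' * γ) * (x * r ^ j)) ((γ' * γ) * δ * (s.onRat (γ' * γ))⁻¹) m
          * r ^ (-m) * (s.onG (ratG (γ' * γ) * (x * r ^ j)))⁻¹ := by
      rw [← ratG_eq_of_twArg29, inv_inv, map_inv]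
    rw [e1, key]
    exact Set.mul_mem_mul (Set.mul_mem_mul (Set.mul_mem_mul hω hg)
      (Set.mem_image_of_mem _ (hM x δ m hδ)))
      (Set.inv_mem_inv.2 (Set.mem_image_of_mem _ hω))
  · push Not at hx
    exact ⟨1, fun δ m hPδ h => absurd (hx δ m hPδ) h⟩

/-- **Convergence of the orbital integral of a class with elliptic regular norm**: for every
continuous function `φ` with compact support, `x ↦ φ♭(x⁻¹ δ σ(x))` is integrable on every strict
fundamental domain of the σ-centraliser of `δ ∈ P` in the slab. -/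
theorem integrableOn_twTermP228 (s : AdelicAut K) (l : ℕ) (k : Subfield K) (𝔫 : Ideal (𝓞 K))
    (hT : T1.T1Out K) (L : TwLeaves s l k 𝔫) (hcyc : IsCyclicOfDegree s l k)
    (μ : Measure (G K)) (F : Set (G K)) (r : G K) (hF : IsFrame μ F) (hr : IsRayGen r)
    (hP : AutPreserves s 𝔫 μ r)
    (φ : G K → ℂ) (hφc : Continuous φ) (ht : HasCompactSupport φ)
    (P : GL (Fin 2) K → Prop)
    (hPc : ∀ γ δ : GL (Fin 2) K, P δ → P (γ * δ * (s.onRat γ)⁻¹))
    (hPr : ∀ δ : GL (Fin 2) K, P δ → IsEllRegOver k (s.normUpTo l δ))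
    (δ : GL (Fin 2) K) (hδ : P δ) (Fδ : Set (G K)) (hFδ : IsTwDomain s δ Fδ) :
    IntegrableOn (twTerm r s φ δ) Fδ μ := by
  classical
  obtain ⟨S, M, hM, hSM⟩ := twBoundP228 s l k 𝔫 hT L hcyc μ r hr hP φ ht P hPc hPr
  have hconj : ∀ x : G K, ∃ γ₀ : GL (Fin 2) K, ∀ δ' : GL (Fin 2) K, P δ' →
      twTerm r s φ δ' x ≠ 0 → γ₀⁻¹ * δ' * s.onRat γ₀ ∈ S := fun x => by
    obtain ⟨γ₀, hγ₀⟩ := hSM x
    refine ⟨γ₀, fun δ' hPδ' hδ' => ?_⟩
    obtain ⟨m, hm⟩ := exists_ne_zero_of_twTerm29 hM δ' x hδ'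
    exact hγ₀ δ' m hPδ' hm
  have hBorel : BorelSpace (G K) := borelSpace_G29 K
  have hcount : Countable (GL (Fin 2) K) := countable_GL29 K
  have hcountΔ : Countable (TwAct29 s) := countable_twAct29 s
  have hMC : MeasurableConstSMul (GL (Fin 2) K) (G K) := measurableConstSMul29 K
  have hSC : SecondCountableTopology (G K) := hT.locComp.2.2.2
  obtain ⟨-, hslab⟩ := L.raySlab hT.adNorm
  have hHaar : μ.IsHaarMeasure := hF.haar
  have hinv : SMulInvariantMeasure (GL (Fin 2) K) (G K) (μ.restrict (slab K)) :=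
    smulInvariant_restrict29 hslab μ
  have hFD : IsFundamentalDomain (GL (Fin 2) K) F (μ.restrict (slab K)) :=
    isFundamentalDomain_of_strict_top29 hT.adNorm μ hF.meas hF.sub hF.strict
  have hstrict' : ∀ g ∈ slab K,
      ∃! γ : MulAction.stabilizer (GL (Fin 2) K) (⟨δ⟩ : TwAct29 s),
        ratG (γ : GL (Fin 2) K) * g ∈ Fδ := by
    intro g hg
    obtain ⟨γ, hγ, hu⟩ := hFδ.strict g hg
    refine ⟨⟨γ.1, (mem_stabilizer_iff29 s δ γ.1).2 γ.2⟩, hγ, fun γ' hγ' => ?_⟩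
    have h := hu ⟨γ'.1, (mem_stabilizer_iff29 s δ γ'.1).1 γ'.2⟩ hγ'
    have h' : (γ' : GL (Fin 2) K) = (γ : GL (Fin 2) K) := congrArg Subtype.val h
    exact Subtype.ext h'
  have hFDδ : IsFundamentalDomain (MulAction.stabilizer (GL (Fin 2) K) (⟨δ⟩ : TwAct29 s)) Fδ
      (μ.restrict (slab K)) :=
    isFundamentalDomain_of_strict29 hT.adNorm μ _ hFδ.meas hFδ.sub hstrict'
  have hunf := Fermat.Agent.LT.H29.lintegral_enorm_orbit_unfold29 (μ := μ.restrict (slab K)) hFD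
    (fun (δ' : TwAct29 s) (x : G K) => twTerm r s φ δ'.val x)
    (fun γ δ' x => twTerm_smul29 hP γ δ' x) ⟨δ⟩ hFDδ
  obtain ⟨C, hC⟩ : ∃ C : ℝ, ∀ g : G K, ‖φ g‖ ≤ C :=
    hφc.bounded_above_of_compact_support ht
  have hcont : ∀ δ' : GL (Fin 2) K, Continuous (twTerm r s φ δ') := fun δ' =>
    continuous_twTerm29 hP hφc hM δ'
  -- the members of the orbit are in the class
  have hPorb : ∀ δ' : MulAction.orbit (GL (Fin 2) K) (⟨δ⟩ : TwAct29 s),
      P (δ' : TwAct29 s).val := by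
    rintro ⟨δ', γ, rfl⟩
    exact hPc γ δ hδ
  -- the summands cut off outside the class
  let g : TwAct29 s → G K → ℝ≥0∞ := fun δ' x => if P δ'.val then ‖twTerm r s φ δ'.val x‖ₑ else 0
  have hgmeas : ∀ δ' : TwAct29 s,
      AEMeasurable (g δ') ((μ.restrict (slab K)).restrict F) := by
    intro δ'
    by_cases hδ' : P δ'.val
    · have : g δ' = fun x => ‖twTerm r s φ δ'.val x‖ₑ := by
        funext x
        simp only [g, if_pos hδ']
      rw [this]
      exact (hcont δ'.val).measurable.enorm.aemeasurable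
    · have : g δ' = fun _ => 0 := by
        funext x
        simp only [g, if_neg hδ']
      rw [this]
      exact aemeasurable_const
  have hptw : ∀ x : G K, ∑' δ' : TwAct29 s, g δ' x
      ≤ S.card * ENNReal.ofReal ((2 * M + 1 : ℕ) * C) := by
    intro x
    obtain ⟨γ₀, hγ₀⟩ := hconj x
    let T : Finset (TwAct29 s) :=
      S.image fun η => (⟨γ₀ * η * (s.onRat γ₀)⁻¹⟩ : TwAct29 s)
    have hT0 : ∀ δ' : TwAct29 s, δ' ∉ T → g δ' x = 0 := by
      intro δ' hδ'
      by_cases hPδ' : P δ'.val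
      · simp only [g, if_pos hPδ']
        by_contra h
        apply hδ'
        have h' : twTerm r s φ δ'.val x ≠ 0 := fun h0 => h (by rw [h0, enorm_zero])
        rw [Finset.mem_image]
        refine ⟨γ₀⁻¹ * δ'.val * s.onRat γ₀, hγ₀ δ'.val hPδ' h', ?_⟩
        apply TwAct29.ext'
        show γ₀ * (γ₀⁻¹ * δ'.val * s.onRat γ₀) * (s.onRat γ₀)⁻¹ = δ'.val
        simp [mul_assoc]
      · simp only [g, if_neg hPδ']
    rw [tsum_eq_sum hT0]
    calc ∑ δ' ∈ T, g δ' x
        ≤ ∑ _δ' ∈ T, ENNReal.ofReal ((2 * M + 1 : ℕ) * C) := by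
          refine Finset.sum_le_sum fun δ' _ => ?_
          by_cases hPδ' : P δ'.val
          · simp only [g, if_pos hPδ']
            rw [← ofReal_norm]
            exact ENNReal.ofReal_le_ofReal (norm_twTerm_le29 hC hM δ'.val x)
          · simp only [g, if_neg hPδ']
            exact bot_le
      _ = T.card * ENNReal.ofReal ((2 * M + 1 : ℕ) * C) := by
          rw [Finset.sum_const, nsmul_eq_mul]
      _ ≤ S.card * ENNReal.ofReal ((2 * M + 1 : ℕ) * C) := by
          gcongr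
          exact Finset.card_image_le
  have hres : (μ.restrict (slab K)).restrict Fδ = μ.restrict Fδ := by
    rw [Measure.restrict_restrict hFδ.meas, Set.inter_eq_left.2 hFδ.sub]
  refine ⟨(hcont δ).aestronglyMeasurable, ?_⟩
  rw [hasFiniteIntegral_iff_enorm, ← hres]
  have h1 : ∫⁻ x in Fδ, ‖twTerm r s φ δ x‖ₑ ∂(μ.restrict (slab K))
      = ∑' δ' : MulAction.orbit (GL (Fin 2) K) (⟨δ⟩ : TwAct29 s),
          ∫⁻ x in F, ‖twTerm r s φ (δ' : TwAct29 s).val x‖ₑ ∂(μ.restrict (slab K)) :=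
    hunf.symm
  rw [h1]
  have h2 : ∀ δ' : MulAction.orbit (GL (Fin 2) K) (⟨δ⟩ : TwAct29 s),
      ∫⁻ x in F, ‖twTerm r s φ (δ' : TwAct29 s).val x‖ₑ ∂(μ.restrict (slab K))
        = ∫⁻ x in F, g (δ' : TwAct29 s) x ∂(μ.restrict (slab K)) := by
    intro δ'
    refine lintegral_congr fun x => ?_
    simp only [g, if_pos (hPorb δ')]
  calc ∑' δ' : MulAction.orbit (GL (Fin 2) K) (⟨δ⟩ : TwAct29 s),
        ∫⁻ x in F, ‖twTerm r s φ (δ' : TwAct29 s).val x‖ₑ ∂(μ.restrict (slab K))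
      = ∑' δ' : MulAction.orbit (GL (Fin 2) K) (⟨δ⟩ : TwAct29 s),
          ∫⁻ x in F, g (δ' : TwAct29 s) x ∂(μ.restrict (slab K)) :=
        tsum_congr h2
    _ ≤ ∑' δ' : TwAct29 s, ∫⁻ x in F, g δ' x ∂(μ.restrict (slab K)) :=
        ENNReal.tsum_comp_le_tsum_of_injective Subtype.val_injective
          (fun δ' : TwAct29 s => ∫⁻ x in F, g δ' x ∂(μ.restrict (slab K)))
    _ = ∫⁻ x in F, ∑' δ' : TwAct29 s, g δ' x ∂(μ.restrict (slab K)) :=
        (lintegral_tsum hgmeas).symm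
    _ ≤ ∫⁻ _x in F, S.card * ENNReal.ofReal ((2 * M + 1 : ℕ) * C) ∂(μ.restrict (slab K)) :=
        lintegral_mono fun x => hptw x
    _ = S.card * ENNReal.ofReal ((2 * M + 1 : ℕ) * C) * (μ.restrict (slab K)) F := by
        rw [lintegral_const, Measure.restrict_apply MeasurableSet.univ, Set.univ_inter]
    _ < ⊤ := by
        refine ENNReal.mul_lt_top
          (ENNReal.mul_lt_top (ENNReal.natCast_lt_top _) ENNReal.ofReal_lt_top) ?_
        exact lt_of_le_of_lt (Measure.restrict_apply_le _ _) hF.finite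

end Fermat.Agent.LT.T7.H228

end
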