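import Mathlib
import Fermat.Agent.LT.T7.H228.AvgOrb
import Fermat.Agent.LT.T1.Closed

/-!
# Row LT, tower T7, leaf `AvgMatchC893` (helper228 spare): the orbital integral of an AVERAGE

OFF-MAIN.  One number field `K`, an automorphism `s`, a class `P` of elements of `GL₂(K)` stable
under σ-conjugation whose members have elliptic regular norm, `δ ∈ P`, `Fδ` a strict fundamental
domain of the σ-centraliser of `δ` in the slab.  Let `φs a`, `a ∈ Ω` (compact, finite measure
`ν`), be functions on `GL₂(𝔸_K)`, jointly continuous in `(a, h)` and supported in one compact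
set.  Then

    setIntegral_twTerm_avg228 :
      ∫ x in Fδ, twTerm r s (fun h => ∫ a, φs a h ∂ν) δ x ∂μ
        = ∫ a, (∫ x in Fδ, twTerm r s (φs a) δ x ∂μ) ∂ν.

Proof.  The sums over the ray are finite sums, uniformly in `a` (`RayBoundC` for a continuous
function `ψ ≥ 0` with compact support, `ψ = 1` on the common support): `twTerm` of the average
is the average of the `twTerm`s.  Fubini on `Fδ × Ω`: the integrand is continuous and dominated
by `B · twTerm ψ`, which is integrable on `Fδ` (`integrableOn_twTermP228`).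
-/

set_option autoImplicit false

open IsDedekindDomain NumberField MeasureTheory
open scoped MatrixGroups Pointwise ENNReal

noncomputable section

namespace Fermat.Agent.LT.T7.H228

open Fermat.Agent.LT.H556.A0 Fermat.Agent.LT.T5 Fermat.Agent.LT Fermat.Agent.LT.T5.H29

attribute [local instance] Fermat.Agent.LT.T5.instMeasurableSpaceG

variable {K : Type} [Field K] [NumberField K]

/-- A jointly continuous family with a common compact support is uniformly bounded. -/
theorem fam_bound228 {Ω : Type} [TopologicalSpace Ω] [CompactSpace Ω] {φs : Ω → G K → ℂ}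
    (hc : Continuous (fun p : Ω × G K => φs p.1 p.2))
    {C : Set (G K)} (hC : IsCompact C) (hs : ∀ (a : Ω) (h : G K), φs a h ≠ 0 → h ∈ C) :
    ∃ B : ℝ, 0 ≤ B ∧ ∀ (a : Ω) (h : G K), ‖φs a h‖ ≤ B := by
  have hK : IsCompact ((Set.univ : Set Ω) ×ˢ C) := isCompact_univ.prod hC
  obtain ⟨B, hB⟩ := hK.exists_bound_of_continuousOn hc.continuousOn
  refine ⟨max B 0, le_max_right _ _, fun a h => ?_⟩
  by_cases hh : φs a h = 0
  · rw [hh, norm_zero]
    exact le_max_right _ _
  · exact (hB (a, h) ⟨Set.mem_univ _, hs a h hh⟩).trans (le_max_left _ _)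

/-- A continuous function `ψ ≥ 0` with compact support which is `1` on the compact set `C`. -/
theorem exists_dom228 (hT : T1.T1Out K) {C : Set (G K)} (hC : IsCompact C) :
    ∃ ψ : G K → ℝ, Continuous ψ ∧ HasCompactSupport ψ ∧ (∀ h ∈ C, ψ h = 1) ∧ ∀ h, 0 ≤ ψ h := by
  haveI : LocallyCompactSpace (G K) := hT.locComp.2.1
  haveI : T2Space (G K) := hT.locComp.2.2.1
  obtain ⟨f, hf1, -, hfc, hf01⟩ :=
    exists_continuous_one_zero_of_isCompact hC isClosed_empty (Set.disjoint_empty C)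
  exact ⟨f, f.continuous, hfc, fun h hh => hf1 hh, fun h => (hf01 h).1⟩

/-- **The orbital integral of an average is the average of the orbital integrals.** -/
theorem setIntegral_twTerm_avg228 (s : AdelicAut K) (l : ℕ) (k : Subfield K) (𝔫 : Ideal (𝓞 K))
    (hcyc : IsCyclicOfDegree s l k)
    (μ : Measure (G K)) (F : Set (G K)) (r : G K) (hF : IsFrame μ F) (hr : IsRayGen r)
    (hP : AutPreserves s 𝔫 μ r)
    (P : GL (Fin 2) K → Prop)
    (hPc : ∀ γ δ : GL (Fin 2) K, P δ → P (γ * δ * (s.onRat γ)⁻¹))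
    (hPr : ∀ δ : GL (Fin 2) K, P δ → IsEllRegOver k (s.normUpTo l δ))
    (δ : GL (Fin 2) K) (hδ : P δ) (Fδ : Set (G K)) (hFδ : IsTwDomain s δ Fδ)
    (Ω : Type) [TopologicalSpace Ω] [CompactSpace Ω] [SecondCountableTopology Ω]
    [MeasurableSpace Ω] [BorelSpace Ω] (ν : Measure Ω) [IsFiniteMeasure ν]
    (φs : Ω → G K → ℂ) (hc : Continuous (fun p : Ω × G K => φs p.1 p.2))
    (hs : ∃ C : Set (G K), IsCompact C ∧ ∀ (a : Ω) (h : G K), φs a h ≠ 0 → h ∈ C) :
    ∫ x in Fδ, twTerm r s (fun h => ∫ a, φs a h ∂ν) δ x ∂μ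
      = ∫ a, (∫ x in Fδ, twTerm r s (φs a) δ x ∂μ) ∂ν := by
  classical
  have hT : T1.T1Out K := T1.t1Out K
  have L : TwLeaves s l k 𝔫 := twLeaves_of_mahler29 s l k 𝔫 (Fermat.Agent.LT.H501.mahlerC501 K)
  haveI : BorelSpace (G K) := borelSpace_G29 K
  haveI : SecondCountableTopology (G K) := hT.locComp.2.2.2
  haveI : LocallyCompactSpace (G K) := hT.locComp.2.1
  haveI : T2Space (G K) := hT.locComp.2.2.1
  haveI : μ.IsHaarMeasure := hF.haar
  obtain ⟨C, hC, hsC⟩ := hs
  obtain ⟨B, hB0, hB⟩ := fam_bound228 hc hC hsC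
  obtain ⟨ψ, hψc, hψs, hψ1, hψ0⟩ := exists_dom228 hT hC
  set ψc : G K → ℂ := fun h => ((ψ h : ℝ) : ℂ) with hψcdef
  have hψcc : Continuous ψc := Complex.continuous_ofReal.comp hψc
  have hψcs : HasCompactSupport ψc := hψs.comp_left Complex.ofReal_zero
  obtain ⟨M, hMψ⟩ := L.rayBound hT.adNorm μ r hr hP ψc hψcs
  -- the uniform ray bound
  have hMa : ∀ (a : Ω) (x : G K) (δ' : GL (Fin 2) K) (m : ℤ),
      φs a (x⁻¹ * ratG δ' * s.onG x * r ^ m) ≠ 0 → m.natAbs ≤ M := by
    intro a x δ' m h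
    refine hMψ x δ' m ?_
    show ((ψ (x⁻¹ * ratG δ' * s.onG x * r ^ m) : ℝ) : ℂ) ≠ 0
    rw [hψ1 _ (hsC a _ h)]
    exact one_ne_zero
  have hMavg : ∀ (x : G K) (δ' : GL (Fin 2) K) (m : ℤ),
      (fun h => ∫ a, φs a h ∂ν) (x⁻¹ * ratG δ' * s.onG x * r ^ m) ≠ 0 → m.natAbs ≤ M := by
    intro x δ' m h
    by_contra hlt
    apply h
    have h0 : ∀ a : Ω, φs a (x⁻¹ * ratG δ' * s.onG x * r ^ m) = 0 := fun a => by
      by_contra ha
      exact hlt (hMa a x δ' m ha)
    show ∫ a, φs a (x⁻¹ * ratG δ' * s.onG x * r ^ m) ∂ν = 0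
    simp only [h0, integral_zero]
  -- integrability in the parameter
  have hinta : ∀ h : G K, Integrable (fun a => φs a h) ν := by
    intro h
    have hch : Continuous (fun a : Ω => φs a h) :=
      hc.comp (continuous_id.prodMk continuous_const)
    exact Integrable.of_bound hch.aestronglyMeasurable B (Filter.Eventually.of_forall fun a => hB a h)
  -- `twTerm` of the average
  have hterm : ∀ x : G K, twTerm r s (fun h => ∫ a, φs a h ∂ν) δ x
      = ∫ a, twTerm r s (φs a) δ x ∂ν := by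
    intro x
    rw [twTerm_eq_sum29 hMavg δ x]
    have e : (fun a => twTerm r s (φs a) δ x)
        = fun a => ∑ m ∈ Finset.Icc (-(M : ℤ)) (M : ℤ), φs a (x⁻¹ * ratG δ * s.onG x * r ^ m) :=
      funext fun a => twTerm_eq_sum29 (hMa a) δ x
    rw [e, integral_finset_sum _ fun m _ => hinta _]
  -- the dominating function
  have hψint : IntegrableOn (twTerm r s ψc δ) Fδ μ :=
    integrableOn_twTermP228 s l k 𝔫 hT L hcyc μ F r hF hr hP ψc hψcc hψcs P hPc hPr δ hδ Fδ hFδ
  have hψsum : ∀ x : G K, ‖twTerm r s ψc δ x‖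
      = ∑ m ∈ Finset.Icc (-(M : ℤ)) (M : ℤ), ψ (x⁻¹ * ratG δ * s.onG x * r ^ m) := by
    intro x
    rw [twTerm_eq_sum29 hMψ δ x]
    have : (∑ m ∈ Finset.Icc (-(M : ℤ)) (M : ℤ), ψc (x⁻¹ * ratG δ * s.onG x * r ^ m))
        = ((∑ m ∈ Finset.Icc (-(M : ℤ)) (M : ℤ), ψ (x⁻¹ * ratG δ * s.onG x * r ^ m) : ℝ) : ℂ) := by
      rw [Complex.ofReal_sum]
    rw [this, Complex.norm_real, Real.norm_eq_abs,
      abs_of_nonneg (Finset.sum_nonneg fun m _ => hψ0 _)]
  have hdom : ∀ (x : G K) (a : Ω), ‖twTerm r s (φs a) δ x‖ ≤ B * ‖twTerm r s ψc δ x‖ := by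
    intro x a
    rw [twTerm_eq_sum29 (hMa a) δ x, hψsum x, Finset.mul_sum]
    refine (norm_sum_le _ _).trans (Finset.sum_le_sum fun m _ => ?_)
    by_cases h0 : φs a (x⁻¹ * ratG δ * s.onG x * r ^ m) = 0
    · rw [h0, norm_zero]
      exact mul_nonneg hB0 (hψ0 _)
    · rw [hψ1 _ (hsC a _ h0), mul_one]
      exact hB a _
  -- joint integrability
  have hcontU : Continuous (Function.uncurry fun (x : G K) (a : Ω) => twTerm r s (φs a) δ x) := by
    have e : (Function.uncurry fun (x : G K) (a : Ω) => twTerm r s (φs a) δ x)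
        = fun p : G K × Ω => ∑ m ∈ Finset.Icc (-(M : ℤ)) (M : ℤ),
            φs p.2 (p.1⁻¹ * ratG δ * s.onG p.1 * r ^ m) :=
      funext fun p => twTerm_eq_sum29 (hMa p.2) δ p.1
    rw [e]
    refine continuous_finsetSum _ fun m _ => ?_
    have harg : Continuous fun p : G K × Ω => p.1⁻¹ * ratG δ * s.onG p.1 * r ^ m :=
      ((continuous_fst.inv.mul continuous_const).mul (hP.cont.comp continuous_fst)).mul
        continuous_const
    exact hc.comp (continuous_snd.prodMk harg)
  have hInt : Integrable (Function.uncurry fun (x : G K) (a : Ω) => twTerm r s (φs a) δ x)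
      ((μ.restrict Fδ).prod ν) := by
    have hg : Integrable (fun p : G K × Ω => B * ‖twTerm r s ψc δ p.1‖)
        ((μ.restrict Fδ).prod ν) :=
      Integrable.comp_fst (f := fun x => B * ‖twTerm r s ψc δ x‖) (hψint.norm.const_mul B) ν
    refine hg.mono' hcontU.aestronglyMeasurable (Filter.Eventually.of_forall fun p => ?_)
    exact hdom p.1 p.2
  calc ∫ x in Fδ, twTerm r s (fun h => ∫ a, φs a h ∂ν) δ x ∂μ
      = ∫ x in Fδ, (∫ a, twTerm r s (φs a) δ x ∂ν) ∂μ :=
        integral_congr_ae (Filter.Eventually.of_forall fun x => hterm x)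
    _ = ∫ a, (∫ x in Fδ, twTerm r s (φs a) δ x ∂μ) ∂ν := integral_integral_swap hInt

end Fermat.Agent.LT.T7.H228

end
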