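import Mathlib
import Fermat.Agent.LT.T7.H228.AvgFub
import Fermat.Agent.LT.T7.H32.Geom
import Fermat.Agent.LT.T5.H942.RegAux
import Fermat.Agent.LT.T7.Matching

/-!
# Row LT, tower T7, leaves `AvgMatchC893` / `AvgMatchQC801` (helper228, SPARE): THE CORE

OFF-MAIN.  `isGlobMatch_avg228`: for EVERY extension `K'/K` of number fields and data `D` with
`IsCompData D`, `T7.IsGlobMatch D` is closed under averages over a compact parameter space with a
finite measure (jointly continuous families with a common compact support).  No hypothesis on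
the degree, the `K_∞`-types or the levels of the members.

Proof.  `setIntegral_twTerm_avg228` (`AvgFub.lean`): for a class of elements with elliptic
regular norm the orbital integral of an average is the average of the orbital integrals
(uniform ray bound, Fubini; the convergence of the orbital integrals of ARBITRARY continuous
functions with compact support at such classes is `integrableOn_twTermP228`, `AvgOrb.lean`, by
the reduction theory of tower T5, leaf T5.07).  Upstairs the class is `{δ' : N δ' ∼ γ}`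
(`isEllRegOver_up228`), downstairs the elliptic elements.  The identities of the members give
the identities of the averages.
-/

set_option autoImplicit false

open AutomorphicForm IsDedekindDomain NumberField MeasureTheory
open scoped ComplexConjugate

noncomputable section

namespace Fermat.Agent.LT.T7.H228

open Fermat.Agent.LT Fermat.Agent.LT.H556 Fermat.Agent.LT.H556.A0 Fermat.Agent.LT.T7

attribute [local instance] Fermat.Agent.LT.T5.instMeasurableSpaceG

section OneField

variable {K : Type} [Field K] [NumberField K]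

/-- Downstairs: an elliptic element is elliptic regular over `K` (frame of T4). -/
theorem isEllRegOver_down228 {γ : GL (Fin 2) K} (hE : T6.IsEll γ) :
    T5.IsEllRegOver ⊤ ((T5.AdelicAut.id K).normUpTo 1 γ) := by
  rw [H32.normUpTo_one_id32]
  refine T5.H942.isEllRegOver_of_no_root942 ⊤ γ
    ⟨(γ : Matrix (Fin 2) (Fin 2) K).trace, Subfield.mem_top _⟩
    ⟨(γ : Matrix (Fin 2) (Fin 2) K).det, Subfield.mem_top _⟩ rfl rfl ?_
  intro x hx
  apply hE.2 (x : K)
  have := congrArg Subtype.val hx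
  simpa using this

/-- Downstairs: the elliptic elements are stable under conjugation. -/
theorem isEll_conj228 (γ₀ γ : GL (Fin 2) K) (hE : T6.IsEll γ) :
    T6.IsEll (γ₀ * γ * ((T5.AdelicAut.id K).onRat γ₀)⁻¹) := by
  rw [T5.onRat_id]
  have hc : IsConj γ (γ₀ * γ * γ₀⁻¹) := isConj_iff.2 ⟨γ₀, rfl⟩
  exact H32.isEll_congr32 (H32.trace_of_isConj32 hc) (H32.det_of_isConj32 hc) hE

end OneField

section TwoFields

variable {K K' : Type} [Field K] [NumberField K] [Field K'] [NumberField K'] [Algebra K K']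

/-- Upstairs: an element whose norm is (conjugate to) an elliptic element of `GL₂(K)` has
elliptic regular norm over the fixed field. -/
theorem isEllRegOver_up228 (D : CompData K K') (hD : IsCompData D) {δ : GL (Fin 2) K'}
    {γ : GL (Fin 2) K} (h : IsNormOf D δ γ) (hE : T6.IsEll γ) :
    T5.IsEllRegOver D.k (D.s.normUpTo D.l δ) := by
  refine T5.H942.isEllRegOver_of_no_root942 D.k _
    ⟨algebraMap K K' (γ : Matrix (Fin 2) (Fin 2) K).trace, (hD.base _).2 ⟨_, rfl⟩⟩
    ⟨algebraMap K K' (γ : Matrix (Fin 2) (Fin 2) K).det, (hD.base _).2 ⟨_, rfl⟩⟩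
    (H32.trace_isNormOf32 D h).symm (H32.det_isNormOf32 D h).symm ?_
  intro x hx
  obtain ⟨y, hy⟩ := (hD.base (x : K')).1 x.2
  apply hE.2 y
  apply (algebraMap K K').injective
  have h1 := congrArg Subtype.val hx
  push_cast at h1
  rw [map_add, map_sub, map_mul, map_pow, hy, map_zero]
  exact h1

/-- Upstairs: the class `{δ' : N δ' ∼ γ}` is stable under σ-conjugation. -/
theorem isNormOf_conj228 (D : CompData K K') (hD : IsCompData D) {γ : GL (Fin 2) K}
    (γ₀ δ : GL (Fin 2) K') (h : IsNormOf D δ γ) :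
    IsNormOf D (γ₀ * δ * (D.s.onRat γ₀)⁻¹) γ :=
  H32.isNormOf_twConj32 D hD h ⟨γ₀⁻¹, by rw [inv_inv, map_inv]⟩

/-- **`IsGlobMatch` is closed under averages.** -/
theorem isGlobMatch_avg228 (D : CompData K K') (hD : IsCompData D)
    (Ω : Type) [TopologicalSpace Ω] [CompactSpace Ω] [SecondCountableTopology Ω]
    [MeasurableSpace Ω] [BorelSpace Ω] (ν : Measure Ω) [IsFiniteMeasure ν]
    (φs : Ω → G K' → ℂ) (fs : Ω → G K → ℂ)
    (hφc : Continuous (fun p : Ω × G K' => φs p.1 p.2))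
    (hfc : Continuous (fun p : Ω × G K => fs p.1 p.2))
    (hφs : ∃ C : Set (G K'), IsCompact C ∧ ∀ (a : Ω) (h : G K'), φs a h ≠ 0 → h ∈ C)
    (hfs : ∃ C : Set (G K), IsCompact C ∧ ∀ (a : Ω) (h : G K), fs a h ≠ 0 → h ∈ C)
    (hmatch : ∀ a : Ω, IsGlobMatch D (φs a) (fs a)) :
    IsGlobMatch D (fun h => ∫ a, φs a h ∂ν) (fun h => ∫ a, fs a h ∂ν) := by
  have hup : ∀ (δ : GL (Fin 2) K') (γ : GL (Fin 2) K), T6.IsEll γ → IsNormOf D δ γ →
      ∀ Fδ : Set (G K'), T5.IsTwDomain D.s δ Fδ →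
        ∫ x in Fδ, T5.twTerm D.R'.r D.s (fun h => ∫ a, φs a h ∂ν) δ x ∂D.R'.μ
          = ∫ a, (∫ x in Fδ, T5.twTerm D.R'.r D.s (φs a) δ x ∂D.R'.μ) ∂ν :=
    fun δ γ hE hN Fδ hFδ =>
      setIntegral_twTerm_avg228 D.s D.l D.k D.𝔑 hD.cyc D.R'.μ D.R'.F D.R'.r hD.frame'.frame
        hD.frame'.ray hD.aut (fun δ' => IsNormOf D δ' γ)
        (fun γ₀ δ' h => isNormOf_conj228 D hD γ₀ δ' h)
        (fun δ' h => isEllRegOver_up228 D hD h hE) δ hN Fδ hFδ Ω ν φs hφc hφs
  have hdn : ∀ γ : GL (Fin 2) K, T6.IsEll γ →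
      ∀ Fγ : Set (G K), T5.IsTwDomain (T5.AdelicAut.id K) γ Fγ →
        ∫ x in Fγ, T5.twTerm D.R.r (T5.AdelicAut.id K) (fun h => ∫ a, fs a h ∂ν) γ x ∂D.R.μ
          = ∫ a, (∫ x in Fγ, T5.twTerm D.R.r (T5.AdelicAut.id K) (fs a) γ x ∂D.R.μ) ∂ν :=
    fun γ hE Fγ hFγ =>
      setIntegral_twTerm_avg228 (T5.AdelicAut.id K) 1 ⊤ D.𝔫 T5.isCyclicOfDegree_id D.R.μ D.R.F
        D.R.r hD.frame.frame hD.frame.ray (T5.autPreserves_id D.𝔫 D.R.μ D.R.r)
        (fun γ' => T6.IsEll γ') (fun γ₀ γ' h => isEll_conj228 γ₀ γ' h)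
        (fun γ' h => isEllRegOver_down228 h) γ hE Fγ hFγ Ω ν fs hfc hfs
  refine ⟨?_, ?_⟩
  · intro δ γ hE hN Fδ Fγ hFδ hFγ
    rw [hup δ γ hE hN Fδ hFδ, hdn γ hE Fγ hFγ]
    exact integral_congr_ae
      (Filter.Eventually.of_forall fun a => (hmatch a).norm δ γ hE hN Fδ Fγ hFδ hFγ)
  · intro γ hE hnn Fγ hFγ
    rw [hdn γ hE Fγ hFγ]
    have h0 : ∀ a : Ω,
        ∫ x in Fγ, T5.twTerm D.R.r (T5.AdelicAut.id K) (fs a) γ x ∂D.R.μ = 0 :=
      fun a => (hmatch a).nonnorm γ hE hnn Fγ hFγ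
    simp only [h0, integral_zero]

end TwoFields

/-- A member of a jointly continuous family with a common compact support is integrable in the
parameter. -/
theorem fam_integrable228 {K : Type} [Field K] [NumberField K]
    {Ω : Type} [TopologicalSpace Ω] [CompactSpace Ω] [SecondCountableTopology Ω]
    [MeasurableSpace Ω] [BorelSpace Ω] (ν : Measure Ω) [IsFiniteMeasure ν]
    {φs : Ω → G K → ℂ} (hc : Continuous (fun p : Ω × G K => φs p.1 p.2))
    (hs : ∃ C : Set (G K), IsCompact C ∧ ∀ (a : Ω) (h : G K), φs a h ≠ 0 → h ∈ C) (h : G K) :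
    Integrable (fun a => φs a h) ν := by
  obtain ⟨C, hC, hsC⟩ := hs
  obtain ⟨B, -, hB⟩ := fam_bound228 hc hC hsC
  have hch : Continuous (fun a : Ω => φs a h) := hc.comp (continuous_id.prodMk continuous_const)
  exact Integrable.of_bound hch.aestronglyMeasurable B (Filter.Eventually.of_forall fun a => hB a h)

section TwoFieldsSum

variable {K K' : Type} [Field K] [NumberField K] [Field K'] [NumberField K'] [Algebra K K']

/-- **`IsGlobMatch` is closed under averages, two summands downstairs** (the form of the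
quadratic step). -/
theorem isGlobMatch_avg_add228 (D : CompData K K') (hD : IsCompData D)
    (Ω : Type) [TopologicalSpace Ω] [CompactSpace Ω] [SecondCountableTopology Ω]
    [MeasurableSpace Ω] [BorelSpace Ω] (ν : Measure Ω) [IsFiniteMeasure ν]
    (φs : Ω → G K' → ℂ) (fs0 fs1 : Ω → G K → ℂ)
    (hφc : Continuous (fun p : Ω × G K' => φs p.1 p.2))
    (hf0c : Continuous (fun p : Ω × G K => fs0 p.1 p.2))
    (hf1c : Continuous (fun p : Ω × G K => fs1 p.1 p.2))
    (hφs : ∃ C : Set (G K'), IsCompact C ∧ ∀ (a : Ω) (h : G K'), φs a h ≠ 0 → h ∈ C)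
    (hf0s : ∃ C : Set (G K), IsCompact C ∧ ∀ (a : Ω) (h : G K), fs0 a h ≠ 0 → h ∈ C)
    (hf1s : ∃ C : Set (G K), IsCompact C ∧ ∀ (a : Ω) (h : G K), fs1 a h ≠ 0 → h ∈ C)
    (hmatch : ∀ a : Ω, IsGlobMatch D (φs a) (fun x => fs0 a x + fs1 a x)) :
    IsGlobMatch D (fun h => ∫ a, φs a h ∂ν)
      (fun x => (∫ a, fs0 a x ∂ν) + ∫ a, fs1 a x ∂ν) := by
  have hfc : Continuous (fun p : Ω × G K => (fun a x => fs0 a x + fs1 a x) p.1 p.2) :=
    hf0c.add hf1c
  have hfs : ∃ C : Set (G K), IsCompact C ∧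
      ∀ (a : Ω) (h : G K), (fun a x => fs0 a x + fs1 a x) a h ≠ 0 → h ∈ C := by
    obtain ⟨C0, hC0, h0⟩ := hf0s
    obtain ⟨C1, hC1, h1⟩ := hf1s
    refine ⟨C0 ∪ C1, hC0.union hC1, fun a h hne => ?_⟩
    by_contra hh
    rw [Set.mem_union, not_or] at hh
    apply hne
    have e0 : fs0 a h = 0 := by
      by_contra h'
      exact hh.1 (h0 a h h')
    have e1 : fs1 a h = 0 := by
      by_contra h'
      exact hh.2 (h1 a h h')
    show fs0 a h + fs1 a h = 0
    rw [e0, e1, add_zero]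
  have havg : (fun x => (∫ a, fs0 a x ∂ν) + ∫ a, fs1 a x ∂ν)
      = fun h => ∫ a, (fun a x => fs0 a x + fs1 a x) a h ∂ν := by
    funext x
    exact (integral_add (fam_integrable228 ν hf0c hf0s x) (fam_integrable228 ν hf1c hf1s x)).symm
  rw [havg]
  exact isGlobMatch_avg228 D hD Ω ν φs (fun a x => fs0 a x + fs1 a x) hφc hfc hφs hfs hmatch

end TwoFieldsSum

end Fermat.Agent.LT.T7.H228


end
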