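import Mathlib
import Fermat.Agent.LT.T7.H228.AvgGlob
import Fermat.Agent.LT.T7.H893.SupplyConstrSpec

/-!
# Row LT, tower T7, node T7.L2.1 `SupplySC`, leaf T7.L2.1.H1b `AvgMatchC893` (helper228, SPARE)

OFF-MAIN.  `avgMatchC228 K K' : H893.AvgMatchC893 K K'`, VERBATIM vs helper893
`SupplyConstrSpec.lean` (sha256 feb0f69771ab), UNCONDITIONAL: `T7.IsGlobMatch` is closed under
averages over a compact parameter space with a finite measure.  The proof is
`isGlobMatch_avg228` (`AvgGlob.lean`; v2 of this file: the core moved there, so that the mirror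
over `ℚ`, `CQ801.AvgMatchQC801`, is the same proof, `AvgMatchQ.lean`).
-/

set_option autoImplicit false

open AutomorphicForm IsDedekindDomain NumberField MeasureTheory

noncomputable section

namespace Fermat.Agent.LT.T7.H228

open Fermat.Agent.LT Fermat.Agent.LT.H556 Fermat.Agent.LT.H556.A0 Fermat.Agent.LT.T7
open Fermat.Agent.LT.T7.H893

attribute [local instance] Fermat.Agent.LT.T5.instMeasurableSpaceG

variable (K K' : Type) [Field K] [NumberField K] [Field K'] [NumberField K'] [Algebra K K']

/-- **LEAF T7.L2.1.H1b = AVG-MATCH**, VERBATIM and UNCONDITIONAL. -/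
theorem avgMatchC228 : AvgMatchC893 K K' := by
  intro D hD _ _ _ Ω iT iC iT2 iS iM iB ν iF φs fs _ _ hφc hfc hφs hfs hmatch
  exact isGlobMatch_avg228 D hD Ω ν φs fs hφc hfc hφs hfs hmatch

end Fermat.Agent.LT.T7.H228

end
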