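import Mathlib

/-!
# Row LT, tower T7: the product of two double coset operators (ABSTRACT, Mathlib only; helper228)

OFF-MAIN.  Asset for `CM616.MulGC616` / its core form (`T7.L2.2.N.1.10`): in a group `G` with a
subgroup `U`, for systems of representatives `Hg` of `U g U / U` and `Hg'` of `U g' U / U`,

    ∑_{h ∈ Hg} ∑_{h' ∈ Hg'} ψ(x h h') = ∑_i c_i ∑_{z ∈ H''_i} ψ(x z)

for every right `U`-invariant `ψ`, with `H''_i` a system of representatives of `U y_i U / U`,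
`y_i = g u_i g'`, `u_i ∈ U` (`hecke_mul228`).
-/

set_option autoImplicit false
set_option linter.unusedSectionVars false
set_option linter.unusedVariables false

noncomputable section

namespace Fermat.Agent.LT.T7.H228

open Classical

variable {G : Type} [Group G]

/-- `H` is a full system of representatives of `U g U / U` (the shape of `T7.IsDblCosetSystem`). -/
def IsSysA228 (U : Subgroup G) (g : G) (H : Finset G) : Prop :=
  (∀ h ∈ H, ∃ u₁ u₂ : G, u₁ ∈ U ∧ u₂ ∈ U ∧ h = u₁ * g * u₂) ∧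
    (∀ h ∈ H, ∀ h' ∈ H, h ≠ h' → ¬ (h⁻¹ * h') ∈ U) ∧
    ∀ u : G, u ∈ U → ∃ h ∈ H, h⁻¹ * (u * g) ∈ U

/-- Every element of `U g U` is represented. -/
theorem IsSysA228.rep {U : Subgroup G} {g : G} {H : Finset G} (hH : IsSysA228 U g H)
    {u₁ u₂ : G} (h₁ : u₁ ∈ U) (h₂ : u₂ ∈ U) : ∃ h ∈ H, h⁻¹ * (u₁ * g * u₂) ∈ U := by
  obtain ⟨h, hh, hu⟩ := hH.2.2 u₁ h₁
  refine ⟨h, hh, ?_⟩
  have : h⁻¹ * (u₁ * g * u₂) = h⁻¹ * (u₁ * g) * u₂ := by group
  rw [this]
  exact U.mul_mem hu h₂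

/-- Left multiplication by `u ∈ U` permutes the representatives modulo `U`. -/
theorem IsSysA228.move {U : Subgroup G} {g : G} {H : Finset G} (hH : IsSysA228 U g H)
    {u h : G} (hu : u ∈ U) (hh : h ∈ H) : ∃ h₁ ∈ H, h₁⁻¹ * (u * h) ∈ U := by
  obtain ⟨u₁, u₂, hu₁, hu₂, rfl⟩ := hH.1 h hh
  obtain ⟨h₁, hh₁, hmem⟩ := hH.rep (U.mul_mem hu hu₁) hu₂
  refine ⟨h₁, hh₁, ?_⟩
  have : u * (u₁ * g * u₂) = u * u₁ * g * u₂ := by group
  rw [this]
  exact hmem

/-- The representative is unique. -/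
theorem IsSysA228.uniq {U : Subgroup G} {g : G} {H : Finset G} (hH : IsSysA228 U g H)
    {h h' a : G} (hh : h ∈ H) (hh' : h' ∈ H) (h1 : h⁻¹ * a ∈ U) (h2 : h'⁻¹ * a ∈ U) :
    h = h' := by
  by_contra hne
  apply hH.2.1 h hh h' hh' hne
  have : h⁻¹ * h' = h⁻¹ * a * (h'⁻¹ * a)⁻¹ := by group
  rw [this]
  exact U.mul_mem h1 (U.inv_mem h2)

/-- The double coset relation. -/
def dblSetoid228 (U : Subgroup G) : Setoid G where
  r a b := ∃ u₁ u₂ : G, u₁ ∈ U ∧ u₂ ∈ U ∧ b = u₁ * a * u₂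
  iseqv :=
    { refl := fun a => ⟨1, 1, U.one_mem, U.one_mem, by group⟩
      symm := by
        rintro a b ⟨u₁, u₂, h₁, h₂, rfl⟩
        exact ⟨u₁⁻¹, u₂⁻¹, U.inv_mem h₁, U.inv_mem h₂, by group⟩
      trans := by
        rintro a b c ⟨u₁, u₂, h₁, h₂, rfl⟩ ⟨v₁, v₂, k₁, k₂, rfl⟩
        exact ⟨v₁ * u₁, u₂ * v₂, U.mul_mem k₁ h₁, U.mul_mem h₂ k₂, by group⟩ }

/-- The multiplicity of the coset `a U` among the products `h h' U`. -/
def mult228 (U : Subgroup G) (Hg Hg' : Finset G) (a : G) : ℕ :=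
  ((Hg ×ˢ Hg').filter fun p => (p.1 * p.2)⁻¹ * a ∈ U).card

theorem mult228_right {U : Subgroup G} (Hg Hg' : Finset G) {a u : G} (hu : u ∈ U) :
    mult228 U Hg Hg' (a * u) = mult228 U Hg Hg' a := by
  unfold mult228
  congr 1
  ext p
  simp only [Finset.mem_filter]
  constructor
  · rintro ⟨hp, h⟩
    refine ⟨hp, ?_⟩
    have : (p.1 * p.2)⁻¹ * a = (p.1 * p.2)⁻¹ * (a * u) * u⁻¹ := by group
    rw [this]
    exact U.mul_mem h (U.inv_mem hu)
  · rintro ⟨hp, h⟩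
    refine ⟨hp, ?_⟩
    have : (p.1 * p.2)⁻¹ * (a * u) = (p.1 * p.2)⁻¹ * a * u := by group
    rw [this]
    exact U.mul_mem h hu

/-- The multiplicity does not decrease under left multiplication by `u⁻¹`, `u ∈ U`. -/
theorem mult228_left_le {U : Subgroup G} {g g' : G} {Hg Hg' : Finset G}
    (hg : IsSysA228 U g Hg) (hg' : IsSysA228 U g' Hg') {a u : G} (hu : u ∈ U) :
    mult228 U Hg Hg' (u * a) ≤ mult228 U Hg Hg' a := by
  unfold mult228
  -- the map on pairs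
  have hmove : ∀ h ∈ Hg, ∃ h₁ ∈ Hg, h₁⁻¹ * (u⁻¹ * h) ∈ U := fun h hh =>
    hg.move (U.inv_mem hu) hh
  choose! σ hσ hσU using hmove
  have hmove' : ∀ h ∈ Hg, ∀ h' ∈ Hg', ∃ h₁' ∈ Hg', h₁'⁻¹ * ((σ h)⁻¹ * (u⁻¹ * h) * h') ∈ U :=
    fun h hh h' hh' => hg'.move (hσU h hh) hh'
  choose! τ hτ hτU using hmove'
  refine Finset.card_le_card_of_injOn (fun p => (σ p.1, τ p.1 p.2)) ?_ ?_
  · intro p hp
    simp only [Finset.coe_filter, Finset.mem_product, Set.mem_ofPred_eq] at hp ⊢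
    obtain ⟨⟨h1, h2⟩, h3⟩ := hp
    refine ⟨⟨hσ _ h1, hτ _ h1 _ h2⟩, ?_⟩
    have key : (σ p.1 * τ p.1 p.2)⁻¹ * a
        = ((τ p.1 p.2)⁻¹ * ((σ p.1)⁻¹ * (u⁻¹ * p.1) * p.2))
          * ((p.1 * p.2)⁻¹ * (u * a)) := by group
    rw [key]
    exact U.mul_mem (hτU _ h1 _ h2) h3
  · intro p hp p' hp'
    simp only [Finset.coe_filter, Finset.mem_product, Set.mem_ofPred_eq] at hp hp'
    obtain ⟨⟨h1, h2⟩, -⟩ := hp
    obtain ⟨⟨h1', h2'⟩, -⟩ := hp'
    intro heq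
    simp only [Prod.mk.injEq] at heq
    obtain ⟨e1, e2⟩ := heq
    -- first components
    have hfirst : p.1 = p'.1 := by
      by_contra hne
      apply hg.2.1 p.1 h1 p'.1 h1' hne
      have : p.1⁻¹ * p'.1
          = ((σ p.1)⁻¹ * (u⁻¹ * p.1))⁻¹ * ((σ p'.1)⁻¹ * (u⁻¹ * p'.1)) := by
        rw [e1]
        group
      rw [this]
      exact U.mul_mem (U.inv_mem (hσU _ h1)) (hσU _ h1')
    have hsecond : p.2 = p'.2 := by
      by_contra hne
      apply hg'.2.1 p.2 h2 p'.2 h2' hne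
      have : p.2⁻¹ * p'.2
          = ((τ p.1 p.2)⁻¹ * ((σ p.1)⁻¹ * (u⁻¹ * p.1) * p.2))⁻¹
            * ((τ p'.1 p'.2)⁻¹ * ((σ p'.1)⁻¹ * (u⁻¹ * p'.1) * p'.2)) := by
        rw [e2, ← hfirst]
        group
      rw [this]
      exact U.mul_mem (U.inv_mem (hτU _ h1 _ h2)) (hτU _ h1' _ h2')
    exact Prod.ext hfirst hsecond

theorem mult228_left {U : Subgroup G} {g g' : G} {Hg Hg' : Finset G}
    (hg : IsSysA228 U g Hg) (hg' : IsSysA228 U g' Hg') {a u : G} (hu : u ∈ U) :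
    mult228 U Hg Hg' (u * a) = mult228 U Hg Hg' a := by
  refine le_antisymm (mult228_left_le hg hg' hu) ?_
  have := mult228_left_le hg hg' (a := u * a) (U.inv_mem hu)
  rwa [inv_mul_cancel_left] at this

/-- The multiplicity is constant on double cosets. -/
theorem mult228_dbl {U : Subgroup G} {g g' : G} {Hg Hg' : Finset G}
    (hg : IsSysA228 U g Hg) (hg' : IsSysA228 U g' Hg') {a u₁ u₂ : G} (h₁ : u₁ ∈ U)
    (h₂ : u₂ ∈ U) : mult228 U Hg Hg' (u₁ * a * u₂) = mult228 U Hg Hg' a := by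
  rw [mult228_right Hg Hg' h₂, mult228_left hg hg' h₁]

/-! ## The canonical representative of a right coset -/

/-- The canonical representative of the coset `a U`. -/
def outR228 (U : Subgroup G) (a : G) : G := (QuotientGroup.mk a : G ⧸ U).out

theorem outR228_mem (U : Subgroup G) (a : G) : (outR228 U a)⁻¹ * a ∈ U := by
  rw [← QuotientGroup.eq]
  exact QuotientGroup.out_eq' _

theorem outR228_mem' (U : Subgroup G) (a : G) : a⁻¹ * outR228 U a ∈ U := by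
  have := U.inv_mem (outR228_mem U a)
  rwa [mul_inv_rev, inv_inv] at this

theorem outR228_eq (U : Subgroup G) {a b : G} (h : a⁻¹ * b ∈ U) : outR228 U a = outR228 U b := by
  unfold outR228
  rw [QuotientGroup.eq.2 h]

theorem outR228_idem (U : Subgroup G) (a : G) : outR228 U (outR228 U a) = outR228 U a :=
  outR228_eq U (outR228_mem U a)

/-- **The product of two double coset operators** (abstract form). -/
theorem hecke_mul228 (U : Subgroup G) (g g' : G) (Hg Hg' : Finset G)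
    (hg : IsSysA228 U g Hg) (hg' : IsSysA228 U g' Hg') :
    ∃ (n : ℕ) (c : Fin n → ℂ) (y : Fin n → G) (H'' : Fin n → Finset G),
      (∀ i, (∃ u ∈ U, y i = g * u * g') ∧ IsSysA228 U (y i) (H'' i)) ∧
      ∀ ψ : G → ℂ, (∀ u ∈ U, ∀ x, ψ (x * u) = ψ x) →
        ∀ x, ∑ h ∈ Hg, ∑ h' ∈ Hg', ψ (x * h * h') = ∑ i, c i * ∑ z ∈ H'' i, ψ (x * z) := by
  classical
  set P := Hg ×ˢ Hg' with hP
  set Y : Finset G := P.image (fun p => outR228 U (p.1 * p.2)) with hY
  let δ : G → Quotient (dblSetoid228 U) := Quotient.mk (dblSetoid228 U)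
  have hδ : ∀ a b : G, δ a = δ b ↔ ∃ u₁ u₂ : G, u₁ ∈ U ∧ u₂ ∈ U ∧ b = u₁ * a * u₂ := by
    intro a b
    constructor
    · intro h
      exact Quotient.exact h
    · intro h
      exact Quotient.sound h
  set I : Finset (Quotient (dblSetoid228 U)) := Y.image δ with hI
  -- members of `Y`
  have hYmem : ∀ z ∈ Y, outR228 U z = z := by
    intro z hz
    obtain ⟨p, -, rfl⟩ := Finset.mem_image.1 hz
    exact outR228_idem U _
  -- the products `g u g'` are represented in `Y`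
  have hYrep : ∀ u ∈ U, ∀ v ∈ U, outR228 U (v * (g * u * g')) ∈ Y := by
    intro u hu v hv
    obtain ⟨h, hh, hmem⟩ := hg.rep hv hu
    obtain ⟨h', hh', hmem'⟩ := hg'.rep hmem U.one_mem
    refine Finset.mem_image.2 ⟨(h, h'), Finset.mem_product.2 ⟨hh, hh'⟩, ?_⟩
    refine outR228_eq U ?_
    have : (h * h')⁻¹ * (v * (g * u * g')) = h'⁻¹ * (h⁻¹ * (v * g * u) * g' * 1) := by group
    show (h * h')⁻¹ * (v * (g * u * g')) ∈ U
    rw [this]
    exact hmem'
  -- representatives of the double cosets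
  have hrep : ∀ ω ∈ I, ∃ u ∈ U, δ (g * u * g') = ω := by
    intro ω hω
    obtain ⟨z, hz, rfl⟩ := Finset.mem_image.1 hω
    obtain ⟨p, hp, rfl⟩ := Finset.mem_image.1 hz
    obtain ⟨hp1, hp2⟩ := Finset.mem_product.1 hp
    obtain ⟨u₁, u₂, hu₁, hu₂, e1⟩ := hg.1 p.1 hp1
    obtain ⟨v₁, v₂, hv₁, hv₂, e2⟩ := hg'.1 p.2 hp2
    refine ⟨u₂ * v₁, U.mul_mem hu₂ hv₁, ?_⟩
    rw [hδ]
    refine ⟨u₁, v₂ * ((p.1 * p.2)⁻¹ * outR228 U (p.1 * p.2)), hu₁,
      U.mul_mem hv₂ (outR228_mem' U _), ?_⟩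
    have : outR228 U (p.1 * p.2) = p.1 * p.2 * ((p.1 * p.2)⁻¹ * outR228 U (p.1 * p.2)) := by
      group
    rw [this, e1, e2]
    group
  choose! uω huω hδω using hrep
  set rep : Quotient (dblSetoid228 U) → G := fun ω => g * uω ω * g' with hrepdef
  -- the systems
  have hsys : ∀ ω ∈ I, IsSysA228 U (rep ω) (Y.filter fun z => δ z = ω) := by
    intro ω hω
    refine ⟨?_, ?_, ?_⟩
    · intro z hz
      obtain ⟨-, hzω⟩ := Finset.mem_filter.1 hz
      have : δ (rep ω) = δ z := by rw [hzω]; exact hδω ω hω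
      exact (hδ _ _).1 this
    · intro z hz z' hz' hne hmem
      obtain ⟨hzY, -⟩ := Finset.mem_filter.1 hz
      obtain ⟨hz'Y, -⟩ := Finset.mem_filter.1 hz'
      apply hne
      rw [← hYmem z hzY, ← hYmem z' hz'Y]
      exact outR228_eq U hmem
    · intro u hu
      have hcl : δ (rep ω) = δ (outR228 U (u * rep ω)) :=
        (hδ _ _).2 ⟨u, (u * rep ω)⁻¹ * outR228 U (u * rep ω), hu, outR228_mem' U _, by group⟩
      exact ⟨outR228 U (u * rep ω),
        Finset.mem_filter.2 ⟨hYrep _ (huω ω hω) u hu, hcl.symm.trans (hδω ω hω)⟩,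
        outR228_mem U _⟩
  -- the index
  set n := I.card with hn
  let e : Fin n ≃ I := (I.equivFin).symm
  refine ⟨n, fun i => (mult228 U Hg Hg' (rep (e i).1) : ℂ), fun i => rep (e i).1,
    fun i => Y.filter fun z => δ z = (e i).1, ?_, ?_⟩
  · intro i
    exact ⟨⟨uω (e i).1, huω _ (e i).2, rfl⟩, hsys _ (e i).2⟩
  · intro ψ hψ x
    have h1 : ∑ h ∈ Hg, ∑ h' ∈ Hg', ψ (x * h * h')
        = ∑ p ∈ P, ψ (x * outR228 U (p.1 * p.2)) := by
      rw [hP, Finset.sum_product]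
      refine Finset.sum_congr rfl fun h _ => Finset.sum_congr rfl fun h' _ => ?_
      have : x * outR228 U (h * h') = x * h * h' * ((h * h')⁻¹ * outR228 U (h * h')) := by
        group
      rw [this, hψ _ (outR228_mem' U _)]
    have h2 : ∑ p ∈ P, ψ (x * outR228 U (p.1 * p.2))
        = ∑ z ∈ Y, (mult228 U Hg Hg' z : ℂ) * ψ (x * z) := by
      rw [Finset.sum_comp (fun z => ψ (x * z)) (fun p : G × G => outR228 U (p.1 * p.2))]
      refine Finset.sum_congr rfl fun z hz => ?_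
      rw [nsmul_eq_mul]
      congr 2
      unfold mult228
      congr 1
      ext p
      simp only [Finset.mem_filter]
      constructor
      · rintro ⟨hp, rfl⟩
        exact ⟨hp, outR228_mem' U _⟩
      · rintro ⟨hp, hmem⟩
        refine ⟨hp, ?_⟩
        rw [outR228_eq U hmem, hYmem z hz]
    have h3 : ∑ z ∈ Y, (mult228 U Hg Hg' z : ℂ) * ψ (x * z)
        = ∑ ω ∈ I, ∑ z ∈ Y with δ z = ω, (mult228 U Hg Hg' z : ℂ) * ψ (x * z) :=
      (Finset.sum_fiberwise_of_maps_to (fun z hz => Finset.mem_image_of_mem δ hz) _).symm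
    have h4 : ∀ ω ∈ I, ∑ z ∈ Y with δ z = ω, (mult228 U Hg Hg' z : ℂ) * ψ (x * z)
        = (mult228 U Hg Hg' (rep ω) : ℂ) * ∑ z ∈ Y with δ z = ω, ψ (x * z) := by
      intro ω hω
      rw [Finset.mul_sum]
      refine Finset.sum_congr rfl fun z hz => ?_
      obtain ⟨-, hzω⟩ := Finset.mem_filter.1 hz
      have : δ (rep ω) = δ z := by rw [hzω]; exact hδω ω hω
      obtain ⟨u₁, u₂, hu₁, hu₂, rfl⟩ := (hδ _ _).1 this
      rw [mult228_dbl hg hg' hu₁ hu₂]
    rw [h1, h2, h3, Finset.sum_congr rfl h4, ← Finset.sum_coe_sort I, ← Equiv.sum_comp e]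

end Fermat.Agent.LT.T7.H228
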