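import Mathlib
import Fermat.Agent.LT.T7.Level2
import Fermat.Agent.LT.H129.Local
import Fermat.Agent.LT.T7.H949.FinProjLocal
import Fermat.Agent.LT.T7.H228.HeckeMul

/-!
# Row LT, tower T7, leaf CM.10 MUL-G (helper228): the core, over one number field

OFF-MAIN.  Common core of `CM616.MulGC616` (cyclic form, `MulG.lean`) and `CMU675.MulGUC675`
(core form, `MulGU.lean`): for a level `𝔫`, a finite set `S'` of finite places and an orbit
`o 0, …, o (l-1)`, the product of two double coset operators of elements supported at the places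
of `S'` outside the orbit is, on the right `U(𝔫)`-invariant functions, a linear combination of
double coset operators of such elements (`mulG_core228`).

Proof.  The abstract product formula `hecke_mul228` (`HeckeMul.lean`, Mathlib only) gives
`[U g U][U g' U] = ∑ c_i [U y_i U]` with `y_i = g u_i g'`, `u_i ∈ U = U(𝔫)` (a subgroup:
`H949.U949`).  Let `B` be the set of the bad places (the places of `S'` outside the orbit).
Split `u = a b` with `a, b ∈ U`, `a` supported on `B` and `b` trivial on `B`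
(`exists_split228`, induction on `B` with the local embeddings of helper129).  As `g'` is
supported on `B`, `b` commutes with `g'`, so `g u g' = (g a g') b`, and `g'' = g a g'` is bad
with `U g'' U = U y U`.

No foreign definition is unfolded by `unfold` / `simp` / `rw` (no foreign equation lemma is
realised here).
-/

set_option autoImplicit false

open IsDedekindDomain NumberField

noncomputable section

namespace Fermat.Agent.LT.T7.H228

open Fermat.Agent.LT.H556 Fermat.Agent.LT.H556.A0 Fermat.Agent.LT Fermat.Agent.LT.T7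
  Fermat.Agent.LT.H129 Fermat.Agent.LT.T7.H949

/-- A system of representatives of `U y U / U` is one of `U g'' U / U` when `y = g'' b`,
`b ∈ U`. -/
theorem IsSysA228.of_right {G : Type} [Group G] {U : Subgroup G} {y g'' b : G} {H : Finset G}
    (hH : IsSysA228 U y H) (hb : b ∈ U) (hy : y = g'' * b) : IsSysA228 U g'' H := by
  refine ⟨fun h hh => ?_, hH.2.1, fun u hu => ?_⟩
  · obtain ⟨u₁, u₂, h₁, h₂, rfl⟩ := hH.1 h hh
    exact ⟨u₁, b * u₂, h₁, U.mul_mem hb h₂, by rw [hy]; group⟩
  · obtain ⟨h, hh, hmem⟩ := hH.rep hu (U.inv_mem hb)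
    refine ⟨h, hh, ?_⟩
    have : u * y * b⁻¹ = u * g'' := by rw [hy]; group
    rwa [this] at hmem

variable {K : Type} [Field K] [NumberField K]

/-- The component at `v` of an element of the level group is in the level group. -/
theorem inLevelGroup_locFin228 {𝔫 : Ideal (𝓞 K)} {u : G K} (hu : InLevelGroup 𝔫 u)
    (v : HeightOneSpectrum (𝓞 K)) : InLevelGroup 𝔫 (locFin129 v (finCompHom129 v u)) := by
  refine ⟨fun w => (trivAtInf_iff129 w _).2 (infCompHom129_locFin129 v _ w), fun v' i j => ?_⟩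
  by_cases h : v' = v
  · subst h
    have e1 : finComp v' (locFin129 v' (finCompHom129 v' u)) = finComp v' u := by
      rw [← coe_finCompHom129, finCompHom129_locFin129, coe_finCompHom129]
    have e2 : finComp v' (locFin129 v' (finCompHom129 v' u))⁻¹ = finComp v' u⁻¹ := by
      rw [← map_inv, ← map_inv, ← coe_finCompHom129, finCompHom129_locFin129,
        coe_finCompHom129]
    rw [e1, e2]
    exact hu.2 v' i j
  · have e1 : finComp v' (locFin129 v (finCompHom129 v u)) = 1 := by
      rw [← coe_finCompHom129, finCompHom129_locFin129_of_ne v _ h]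
      rfl
    have e2 : finComp v' (locFin129 v (finCompHom129 v u))⁻¹ = 1 := by
      rw [← map_inv, ← coe_finCompHom129, finCompHom129_locFin129_of_ne v _ h]
      rfl
    have h0 : (0 : v'.adicCompletion K) ∈ idealClosure 𝔫 v' := zero_mem_idealClosure949 𝔫 v'
    rw [e1, e2, sub_self]
    exact ⟨h0, h0⟩

/-- **The splitting.**  An element of the level group is `a b` with `a`, `b` in the level group,
`a` trivial outside the finite set `B` of finite places and `b` trivial on `B`. -/
theorem exists_split228 {𝔫 : Ideal (𝓞 K)} (B : Finset (HeightOneSpectrum (𝓞 K))) {u : G K}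
    (hu : InLevelGroup 𝔫 u) :
    ∃ a b : G K, InLevelGroup 𝔫 a ∧ InLevelGroup 𝔫 b ∧ u = a * b ∧
      (∀ v, v ∉ B → finCompHom129 v a = 1) ∧ ∀ v ∈ B, finCompHom129 v b = 1 := by
  classical
  induction B using Finset.induction_on with
  | empty =>
    exact ⟨1, u, (U949 𝔫).one_mem, hu, (one_mul u).symm, fun v _ => map_one _,
      fun v hv => absurd hv (Finset.notMem_empty v)⟩
  | insert v0 B hv0 ih =>
    obtain ⟨a, b, ha, hb, hab, ha1, hb1⟩ := ih
    have hc : InLevelGroup 𝔫 (locFin129 v0 (finCompHom129 v0 b)) :=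
      inLevelGroup_locFin228 hb v0
    refine ⟨a * locFin129 v0 (finCompHom129 v0 b), (locFin129 v0 (finCompHom129 v0 b))⁻¹ * b,
      (U949 𝔫).mul_mem ha hc, (U949 𝔫).mul_mem ((U949 𝔫).inv_mem hc) hb, ?_, ?_, ?_⟩
    · rw [hab]
      group
    · intro v hv
      rw [Finset.mem_insert, not_or] at hv
      rw [map_mul, ha1 v hv.2, finCompHom129_locFin129_of_ne v0 _ hv.1, mul_one]
    · intro v hv
      rw [Finset.mem_insert] at hv
      rcases hv with rfl | hv
      · rw [map_mul, map_inv, finCompHom129_locFin129, inv_mul_cancel]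
      · have hne : v ≠ v0 := fun h => hv0 (h ▸ hv)
        rw [map_mul, map_inv, finCompHom129_locFin129_of_ne v0 _ hne, inv_one, one_mul,
          hb1 v hv]

/-- `g` is supported at the places of `S'` outside the orbit (the shape of `L2Data.IsBad` and of
`H29.UpData.IsBad`). -/
def IsBadA228 (S' : Finset (HeightOneSpectrum (𝓞 K))) (l : ℕ)
    (o : ℕ → HeightOneSpectrum (𝓞 K)) (g : G K) : Prop :=
  (∀ w : InfinitePlace K, TrivAtInf w g) ∧
    ∀ v : HeightOneSpectrum (𝓞 K), (v ∉ S' ∨ ∃ j < l, v = o j) → TrivAtFin v g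

theorem isBadA_iff228 (S' : Finset (HeightOneSpectrum (𝓞 K))) (l : ℕ)
    (o : ℕ → HeightOneSpectrum (𝓞 K)) (g : G K) :
    IsBadA228 S' l o g ↔ (∀ w : InfinitePlace K, infCompHom129 w g = 1) ∧
      ∀ v : HeightOneSpectrum (𝓞 K), (v ∉ S' ∨ ∃ j < l, v = o j) →
        finCompHom129 v g = 1 :=
  ⟨fun h => ⟨fun w => (trivAtInf_iff129 w g).1 (h.1 w),
      fun v hv => (trivAtFin_iff129 v g).1 (h.2 v hv)⟩,
    fun h => ⟨fun w => (trivAtInf_iff129 w g).2 (h.1 w),
      fun v hv => (trivAtFin_iff129 v g).2 (h.2 v hv)⟩⟩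

/-- **The bad representative.**  For bad `g`, `g'` and `u ∈ U(𝔫)`, `g u g' = g'' b` with `g''`
bad and `b ∈ U(𝔫)`. -/
theorem exists_bad_rep228 (𝔫 : Ideal (𝓞 K)) (S' : Finset (HeightOneSpectrum (𝓞 K))) (l : ℕ)
    (o : ℕ → HeightOneSpectrum (𝓞 K)) {g g' u : G K} (hg : IsBadA228 S' l o g)
    (hg' : IsBadA228 S' l o g') (hu : InLevelGroup 𝔫 u) :
    ∃ g'' b : G K, IsBadA228 S' l o g'' ∧ InLevelGroup 𝔫 b ∧ g * u * g' = g'' * b := by
  classical
  obtain ⟨a, b, ha, hb, hab, ha1, hb1⟩ :=
    exists_split228 (S'.filter (fun v => ¬ ∃ j < l, v = o j)) hu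
  rw [isBadA_iff228] at hg hg'
  have hnotB : ∀ v, (v ∉ S' ∨ ∃ j < l, v = o j) →
      v ∉ S'.filter (fun v => ¬ ∃ j < l, v = o j) := by
    intro v hv hvB
    rw [Finset.mem_filter] at hvB
    rcases hv with h | h
    · exact h hvB.1
    · exact hvB.2 h
  have hBnot : ∀ v, v ∉ S'.filter (fun v => ¬ ∃ j < l, v = o j) →
      (v ∉ S' ∨ ∃ j < l, v = o j) := by
    intro v hv
    by_contra hcon
    rw [not_or, not_not] at hcon
    exact hv (Finset.mem_filter.2 ⟨hcon.1, hcon.2⟩)
  have hainf : ∀ w, infCompHom129 w a = 1 := fun w => (trivAtInf_iff129 w a).1 (ha.1 w)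
  have hbinf : ∀ w, infCompHom129 w b = 1 := fun w => (trivAtInf_iff129 w b).1 (hb.1 w)
  refine ⟨g * a * g', b, ?_, hb, ?_⟩
  · rw [isBadA_iff228]
    refine ⟨fun w => by rw [map_mul, map_mul, hg.1 w, hainf w, hg'.1 w, mul_one, mul_one],
      fun v hv => ?_⟩
    rw [map_mul, map_mul, hg.2 v hv, ha1 v (hnotB v hv), hg'.2 v hv, mul_one, mul_one]
  · have hcomm : b * g' = g' * b := by
      apply G_ext129
      · intro w
        rw [map_mul, map_mul, hbinf w, hg'.1 w]
      · intro v
        by_cases hv : v ∈ S'.filter (fun v => ¬ ∃ j < l, v = o j)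
        · rw [map_mul, map_mul, hb1 v hv, one_mul, mul_one]
        · rw [map_mul, map_mul, hg'.2 v (hBnot v hv), one_mul, mul_one]
    rw [hab]
    calc g * (a * b) * g' = g * a * (b * g') := by group
      _ = g * a * (g' * b) := by rw [hcomm]
      _ = g * a * g' * b := by group

/-- **MUL-G, the core.** -/
theorem mulG_core228 (𝔫 : Ideal (𝓞 K)) (S' : Finset (HeightOneSpectrum (𝓞 K))) (l : ℕ)
    (o : ℕ → HeightOneSpectrum (𝓞 K)) (g g' : G K) (Hg Hg' : Finset (G K))
    (hg : IsBadA228 S' l o g) (hHg : IsDblCosetSystem 𝔫 g Hg)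
    (hg' : IsBadA228 S' l o g') (hHg' : IsDblCosetSystem 𝔫 g' Hg') :
    ∃ (n : ℕ) (c : Fin n → ℂ) (g'' : Fin n → G K) (H'' : Fin n → Finset (G K)),
      (∀ i, IsBadA228 S' l o (g'' i) ∧ IsDblCosetSystem 𝔫 (g'' i) (H'' i)) ∧
      ∀ ψ : G K → ℂ, (∀ u : G K, InLevelGroup 𝔫 u → ∀ x : G K, ψ (x * u) = ψ x) →
        ∀ x : G K, cosetOp Hg (cosetOp Hg' ψ) x = ∑ i, c i * cosetOp (H'' i) ψ x := by
  have h1 : IsSysA228 (U949 𝔫) g Hg := hHg
  have h2 : IsSysA228 (U949 𝔫) g' Hg' := hHg'
  obtain ⟨n, c, y, H'', hy, hsum⟩ := hecke_mul228 (U949 𝔫) g g' Hg Hg' h1 h2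
  have hex : ∀ i, ∃ g'' : G K, IsBadA228 S' l o g'' ∧ IsDblCosetSystem 𝔫 g'' (H'' i) := by
    intro i
    obtain ⟨⟨u, hu, hyu⟩, hsys⟩ := hy i
    obtain ⟨g'', b, hbad, hb, e⟩ := exists_bad_rep228 𝔫 S' l o hg hg' hu
    exact ⟨g'', hbad, hsys.of_right (U := U949 𝔫) hb (hyu.trans e)⟩
  choose g'' hg'' using hex
  refine ⟨n, c, g'', H'', hg'', fun ψ hψ x => ?_⟩
  exact hsum ψ (fun u hu x => hψ u hu x) x

end Fermat.Agent.LT.T7.H228

end
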