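import Fermat.Agent.LT.T7.H675.ClassModelU
import Fermat.Agent.LT.T7.H228.MulGCore

/-!
# Row LT, tower T7, leaf CM.10 MUL-G in CORE FORM: `CMU675.MulGUC675` (helper228)

OFF-MAIN.  `mulGUC228 K' : CMU675.MulGUC675 K'`, VERBATIM vs helper675 `ClassModelU.lean`
(sha256 9a359011), UNCONDITIONAL; the proof is `mulG_core228` of `MulGCore.lean`.
-/

set_option autoImplicit false

open IsDedekindDomain NumberField

noncomputable section

namespace Fermat.Agent.LT.T7.H228

open Fermat.Agent.LT.H556 Fermat.Agent.LT.H556.A0 Fermat.Agent.LT Fermat.Agent.LT.T7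
  Fermat.Agent.LT.T7.CMU675

variable (K' : Type) [Field K'] [NumberField K']

/-- **LEAF CM.10 = MUL-G, core form**, VERBATIM. -/
theorem mulGUC228 : MulGUC675 K' :=
  fun _ _ U _ g g' Hg Hg' hg hHg hg' hHg' =>
    mulG_core228 U.𝔑₀ U.S' U.l U.o g g' Hg Hg' hg hHg hg' hHg'

end Fermat.Agent.LT.T7.H228

end
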