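import Mathlib
import Fermat.Agent.LT.T7.H228.AvgGlob
import Fermat.Agent.LT.T7.H801.SupplyQConstrSpec

/-!
# Row LT, tower T7, quadratic step, leaf T7.L2Q.1.H1b `AvgMatchQC801` (helper228, SPARE)

OFF-MAIN.  `avgMatchQC228 F : CQ801.AvgMatchQC801 F`, VERBATIM vs helper801 `SupplyQConstrSpec.lean` (sha256 d1e7dc69460e), UNCONDITIONAL.
The proof is `isGlobMatch_avg_add228` (`AvgGlob.lean`).
-/

set_option autoImplicit false

open AutomorphicForm IsDedekindDomain NumberField MeasureTheory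

noncomputable section

namespace Fermat.Agent.LT.T7.H228

open Fermat.Agent.LT Fermat.Agent.LT.H556 Fermat.Agent.LT.H556.A0 Fermat.Agent.LT.T7

attribute [local instance] Fermat.Agent.LT.T5.instMeasurableSpaceG

variable (F : Type) [Field F] [NumberField F]

/-- **LEAF T7.L2Q.1.H1b = AVG-MATCH over `ℚ`**, VERBATIM and UNCONDITIONAL. -/
theorem avgMatchQC228 : CQ801.AvgMatchQC801 F := by
  intro _ D hD _ _ Ω iT iC iT2 iS iM iB ν iF φs fs0 fs1 _ _ _ hφc hf0c hf1c hφs hf0s hf1s hmatch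
  exact isGlobMatch_avg_add228 D hD Ω ν φs fs0 fs1 hφc hf0c hf1c hφs hf0s hf1s hmatch

end Fermat.Agent.LT.T7.H228

end
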